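import Mathlib
import Fermat.Prelude.Def_FLTPrelim_Ramification

/-!
# Inertia of a place of `ℚ̄`, lifting from finite level, and Minkowski's theorem

For a valuation subring `A` of `ℚ̄` over a prime number:
* `mem_inertiaSubgroupIn_iff`: membership in inertia in elementary terms;
* `exists_mem_inertiaSubgroupIn_extending`: an inertia element of a finite Galois level lifts;
* `subgroup_eq_top_of_inertia_le`: an open normal subgroup containing, for each prime, the
  inertia group of some place above it, is the whole group.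
-/

open NumberField
open scoped Pointwise NumberField

noncomputable section

namespace Fermat.Agent.FreyReducible

local notation "Ω" => AlgebraicClosure ℚ
local notation "G_ℚ" => (AlgebraicClosure ℚ) ≃ₐ[ℚ] (AlgebraicClosure ℚ)

-- `IntermediateField` subtypes need this spelled out because of the two `ℚ`-algebra structures.
local instance isAlgebraicQbar_fr : Algebra.IsAlgebraic ℚ (AlgebraicClosure ℚ) :=
  AlgebraicClosure.isAlgebraic ℚ
local instance isAlgClosureQbar_fr : IsAlgClosure ℚ (AlgebraicClosure ℚ) :=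
  ⟨inferInstance, inferInstance⟩
local instance isGaloisQbar_fr : IsGalois ℚ (AlgebraicClosure ℚ) :=
  have : Normal ℚ (AlgebraicClosure ℚ) := IsAlgClosure.normal ℚ (AlgebraicClosure ℚ)
  have : Algebra.IsSeparable ℚ (AlgebraicClosure ℚ) :=
    Algebra.IsAlgebraic.isSeparable_of_perfectField
  IsGalois.mk

lemma mem_of_isIntegral_int {L : Type*} [Field L] (A : ValuationSubring L) {x : L}
    (hx : IsIntegral ℤ x) : x ∈ A := by
  have hA : IsIntegral A x := hx.tower_top
  obtain ⟨y, rfl⟩ := IsIntegrallyClosed.algebraMap_eq_of_integral hA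
  exact y.2

/-- Membership in the inertia subgroup in elementary terms. -/
lemma mem_inertiaSubgroupIn_iff {K L : Type*} [Field K] [Field L] [Algebra K L]
    (A : ValuationSubring L) (σ : L ≃ₐ[K] L) :
    σ ∈ A.inertiaSubgroupIn K ↔
      σ ∈ A.decompositionSubgroup K ∧ ∀ x ∈ A, σ x - x ∈ A.nonunits := by
  constructor
  · rintro ⟨s, hs, rfl⟩
    refine ⟨s.2, fun x hx => ?_⟩
    have h := congrArg (fun e : RingAut (IsLocalRing.ResidueField A) =>
      e (IsLocalRing.residue A ⟨x, hx⟩)) (MonoidHom.mem_ker.mp hs)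
    have h' : IsLocalRing.residue A (s • (⟨x, hx⟩ : A)) = IsLocalRing.residue A ⟨x, hx⟩ := h
    rw [← sub_eq_zero, ← map_sub, IsLocalRing.residue_eq_zero_iff,
      ← ValuationSubring.coe_mem_nonunits_iff] at h'
    exact h'
  · rintro ⟨hd, hi⟩
    refine ⟨⟨σ, hd⟩, ?_, rfl⟩
    refine MonoidHom.mem_ker.mpr (RingEquiv.ext fun r => ?_)
    obtain ⟨⟨x, hx⟩, rfl⟩ := IsLocalRing.residue_surjective r
    show IsLocalRing.residue A ((⟨σ, hd⟩ : A.decompositionSubgroup K) • (⟨x, hx⟩ : A))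
      = IsLocalRing.residue A ⟨x, hx⟩
    rw [← sub_eq_zero, ← map_sub, IsLocalRing.residue_eq_zero_iff,
      ← ValuationSubring.coe_mem_nonunits_iff]
    exact hi x hx

/-- The decomposition group preserves its valuation subring. -/
lemma apply_mem_of_mem_decompositionSubgroup {K L : Type*} [Field K] [Field L] [Algebra K L]
    (A : ValuationSubring L) {σ : L ≃ₐ[K] L} (hσ : σ ∈ A.decompositionSubgroup K) {x : L} :
    σ x ∈ A ↔ x ∈ A := by
  have h : σ • A = A := hσ
  conv_lhs => rw [← h]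
  rw [← AlgEquiv.smul_def, ValuationSubring.smul_mem_pointwise_smul_iff]

/-- The prime of the algebraic integers under a valuation subring. -/
def placeIdeal (A : ValuationSubring Ω) : Ideal (𝓞 Ω) :=
  (IsLocalRing.maximalIdeal A).comap
    ((algebraMap (𝓞 Ω) Ω).codRestrict A.toSubring fun b => mem_of_isIntegral_int A b.isIntegral_coe)

instance (A : ValuationSubring Ω) : (placeIdeal A).IsPrime := by
  unfold placeIdeal
  infer_instance

lemma mem_placeIdeal {A : ValuationSubring Ω} {b : 𝓞 Ω} :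
    b ∈ placeIdeal A ↔ (b : Ω) ∈ A.nonunits := by
  unfold placeIdeal
  rw [Ideal.mem_comap, ← ValuationSubring.coe_mem_nonunits_iff]
  rfl

/-- `A` consists of the fractions of algebraic integers with denominator outside its prime. -/
lemma exists_num_den {A : ValuationSubring Ω} {q : ℕ} (hq : q ≠ 0) (hA : A.LiesOverPrime q)
    {x : Ω} (hx : x ∈ A) :
    ∃ n d : 𝓞 Ω, d ∉ placeIdeal A ∧ x * (d : Ω) = (n : Ω) := by
  have : FiniteDimensional ℚ (IntermediateField.adjoin ℚ ({x} : Set Ω)) :=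
    IntermediateField.adjoin.finiteDimensional (Algebra.IsIntegral.isIntegral x)
  let L := IntermediateField.adjoin ℚ ({x} : Set Ω)
  have : NumberField L := { to_charZero := inferInstance, to_finiteDimensional := inferInstance }
  have hmem : ∀ b : 𝓞 L, ((b : L) : Ω) ∈ A := fun b =>
    mem_of_isIntegral_int A (b.isIntegral_coe.map (L.val.restrictScalars ℤ))
  let f : 𝓞 L →+* A.toSubring :=
    ((algebraMap L Ω).comp (algebraMap (𝓞 L) L)).codRestrict A.toSubring hmem
  let P : Ideal (𝓞 L) := (IsLocalRing.maximalIdeal A).comap f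
  have hP : ∀ b : 𝓞 L, b ∈ P ↔ ((b : L) : Ω) ∈ A.nonunits := fun b => by
    show f b ∈ IsLocalRing.maximalIdeal A ↔ _
    rw [← ValuationSubring.coe_mem_nonunits_iff]
    rfl
  have hqP : (q : 𝓞 L) ∈ P := by
    rw [hP, show (((q : 𝓞 L) : L) : Ω) = (q : Ω) by push_cast; rfl]
    exact hA
  have hprime : P.IsPrime := Ideal.IsPrime.comap f
  let v : IsDedekindDomain.HeightOneSpectrum (𝓞 L) :=
    ⟨P, hprime, fun h => hq (by
      have h0 : (q : 𝓞 L) = 0 := by simpa [h] using hqP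
      exact_mod_cast h0)⟩
  let x' : L := ⟨x, IntermediateField.mem_adjoin_simple_self ℚ x⟩
  obtain ⟨n, ⟨d, hd⟩, h⟩ := v.exists_primeCompl_mul_eq_or_mul_eq x'
  have hd' : ((d : L) : Ω) ∉ A.nonunits := fun hh => hd ((hP d).mpr hh)
  let ι : 𝓞 L → 𝓞 Ω := fun b => ⟨((b : L) : Ω), b.isIntegral_coe.map (L.val.restrictScalars ℤ)⟩
  rcases h with h | h
  · refine ⟨ι n, ι d, fun hh => hd' (mem_placeIdeal.mp hh), ?_⟩
    exact congrArg (fun t : L => (t : Ω)) h
  · have h' : x * ((n : L) : Ω) = ((d : L) : Ω) := congrArg (fun t : L => (t : Ω)) h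
    refine ⟨ι d, ι n, fun hh => hd' ?_, h'⟩
    have hn : ((n : L) : Ω) ∈ A.nonunits := mem_placeIdeal.mp hh
    rw [ValuationSubring.mem_nonunits_iff] at hn ⊢
    rw [← h', map_mul]
    exact mul_lt_one_of_nonneg_of_lt_one_right ((A.valuation_le_one_iff x).mpr hx) zero_le hn

lemma valuation_coe_eq_one {A : ValuationSubring Ω} {d : 𝓞 Ω} (hd : d ∉ placeIdeal A) :
    A.valuation (d : Ω) = 1 :=
  le_antisymm ((A.valuation_le_one_iff _).mpr (mem_of_isIntegral_int A d.isIntegral_coe))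
    (not_lt.mp fun hh => hd (mem_placeIdeal.mpr hh))

lemma apply_mem_of_smul_placeIdeal_eq {A : ValuationSubring Ω} {q : ℕ} (hq : q ≠ 0)
    (hA : A.LiesOverPrime q) {σ : G_ℚ} (h : σ • placeIdeal A = placeIdeal A) {x : Ω} (hx : x ∈ A) :
    σ x ∈ A := by
  obtain ⟨n, d, hd, hxd⟩ := exists_num_den hq hA hx
  have hd1 : A.valuation (σ (d : Ω)) = 1 := valuation_coe_eq_one (d := σ • d) fun hh =>
    hd (Ideal.smul_mem_pointwise_smul_iff.mp (h.symm ▸ hh))
  have hxn : σ x * σ (d : Ω) = σ (n : Ω) := by rw [← map_mul, hxd]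
  rw [← A.valuation_le_one_iff]
  have := congrArg A.valuation hxn
  rw [map_mul, hd1, mul_one] at this
  rw [this]
  exact (A.valuation_le_one_iff _).mpr (mem_of_isIntegral_int A (σ • n).isIntegral_coe)

/-- An automorphism fixing the prime of `A` is in the decomposition group of `A`. -/
lemma mem_decompositionSubgroup_of_smul_placeIdeal_eq {A : ValuationSubring Ω} {q : ℕ}
    (hq : q ≠ 0) (hA : A.LiesOverPrime q) {σ : G_ℚ} (h : σ • placeIdeal A = placeIdeal A) :
    σ ∈ A.decompositionSubgroup ℚ := by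
  refine MulAction.mem_stabilizer_iff.mpr (SetLike.ext fun x => ?_)
  rw [ValuationSubring.mem_pointwise_smul_iff_inv_smul_mem, AlgEquiv.smul_def]
  refine ⟨fun hx => ?_, fun hx =>
    apply_mem_of_smul_placeIdeal_eq hq hA (inv_smul_eq_iff.mpr h.symm) hx⟩
  have := apply_mem_of_smul_placeIdeal_eq hq hA h hx
  rwa [← AlgEquiv.mul_apply, mul_inv_cancel, AlgEquiv.one_apply] at this

/-- An automorphism acting trivially on algebraic integers modulo the prime of `A` is in
the inertia subgroup of `A`. -/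
lemma mem_inertiaSubgroupIn_of_forall {A : ValuationSubring Ω} {q : ℕ} (hq : q ≠ 0)
    (hA : A.LiesOverPrime q) {σ : G_ℚ} (h : ∀ b : 𝓞 Ω, σ • b - b ∈ placeIdeal A) :
    σ ∈ A.inertiaSubgroupIn ℚ := by
  have key : ∀ τ : G_ℚ, (∀ b : 𝓞 Ω, τ • b - b ∈ placeIdeal A) →
      ∀ x ∈ A, τ x ∈ A ∧ τ x - x ∈ A.nonunits := by
    intro τ hτ x hx
    obtain ⟨n, d, hd, hxd⟩ := exists_num_den hq hA hx
    have hd0 : A.valuation (d : Ω) = 1 :=
      le_antisymm ((A.valuation_le_one_iff _).mpr (mem_of_isIntegral_int A d.isIntegral_coe))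
        (not_lt.mp fun hh => hd (mem_placeIdeal.mpr hh))
    have h1 : τ (n : Ω) - n ∈ A.nonunits := mem_placeIdeal.mp (hτ n)
    have h2 : τ (d : Ω) - d ∈ A.nonunits := mem_placeIdeal.mp (hτ d)
    rw [ValuationSubring.mem_nonunits_iff] at h1 h2
    have hd1 : A.valuation (τ (d : Ω)) = 1 := by
      rw [show τ (d : Ω) = (d : Ω) + (τ (d : Ω) - d) by ring,
        A.valuation.map_add_eq_of_lt_left (by rw [hd0]; exact h2), hd0]
    have hτx : τ x * τ (d : Ω) = τ (n : Ω) := by rw [← map_mul, hxd]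
    have hxv : A.valuation (τ x) ≤ 1 := by
      have := congrArg A.valuation hτx
      rw [map_mul, hd1, mul_one] at this
      rw [this]
      exact (A.valuation_le_one_iff _).mpr
        (mem_of_isIntegral_int A (n.isIntegral_coe.map (τ.toAlgHom.restrictScalars ℤ)))
    refine ⟨(A.valuation_le_one_iff _).mp hxv, ?_⟩
    have e : (τ x - x) * (d : Ω) = (τ (n : Ω) - n) + (-(τ x * (τ (d : Ω) - d))) := by
      rw [← hτx, ← hxd]; ring
    have : A.valuation (τ x - x) < 1 := by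
      have := congrArg A.valuation e
      rw [map_mul, hd0, mul_one] at this
      rw [this]
      refine A.valuation.map_add_lt h1 ?_
      rw [Valuation.map_neg, map_mul]
      exact mul_lt_one_of_nonneg_of_lt_one_right hxv zero_le h2
    rwa [ValuationSubring.mem_nonunits_iff]
  have hinv : ∀ b : 𝓞 Ω, σ⁻¹ • b - b ∈ placeIdeal A := fun b => by
    have := h (σ⁻¹ • b)
    rw [smul_inv_smul] at this
    simpa [sub_eq_add_neg, add_comm] using (placeIdeal A).neg_mem this
  refine (mem_inertiaSubgroupIn_iff A σ).mpr ⟨?_, fun x hx => (key σ h x hx).2⟩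
  refine MulAction.mem_stabilizer_iff.mpr (SetLike.ext fun x => ?_)
  rw [ValuationSubring.mem_pointwise_smul_iff_inv_smul_mem, AlgEquiv.smul_def]
  refine ⟨fun hx => ?_, fun hx => (key σ⁻¹ hinv x hx).1⟩
  have := (key σ h _ hx).1
  rwa [← AlgEquiv.mul_apply, mul_inv_cancel, AlgEquiv.one_apply] at this

instance (F : IntermediateField ℚ Ω) : SMulCommClass (Ω ≃ₐ[F] Ω) (𝓞 F) (𝓞 Ω) :=
  ⟨fun τ a b => by
    apply RingOfIntegers.coe_injective
    show τ (((a : F) : Ω) * (b : Ω)) = ((a : F) : Ω) * τ (b : Ω)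
    rw [map_mul]
    congr 1
    exact τ.commutes (a : F)⟩

instance (F : IntermediateField ℚ Ω) : Algebra.IsInvariant (𝓞 F) (𝓞 Ω) (Ω ≃ₐ[F] Ω) :=
  ⟨fun b hb => by
    obtain ⟨a, ha⟩ := (InfiniteGalois.mem_range_algebraMap_iff_fixed (b : Ω)).mpr
      fun τ => congrArg (fun t : 𝓞 Ω => (t : Ω)) (hb τ)
    refine ⟨⟨a, ?_⟩, RingOfIntegers.coe_injective ha⟩
    refine (isIntegral_algebraMap_iff (A := F) (B := Ω) (algebraMap F Ω).injective).mp ?_
    rw [ha]
    exact b.isIntegral_coe⟩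

lemma continuousSMul_ringOfIntegers (F : IntermediateField ℚ Ω) :
    let : TopologicalSpace (𝓞 Ω) := ⊥
    ContinuousSMul (Ω ≃ₐ[F] Ω) (𝓞 Ω) := by
  let : TopologicalSpace (𝓞 Ω) := ⊥
  have : DiscreteTopology (𝓞 Ω) := ⟨rfl⟩
  refine continuousSMul_iff_stabilizer_isOpen.mpr fun b => ?_
  convert stabilizer_isOpen_of_isIntegral (K := F) (b : Ω) using 1
  ext τ
  exact ⟨fun h => congrArg (fun t : 𝓞 Ω => (t : Ω)) h, fun h => RingOfIntegers.coe_injective h⟩

/-- An automorphism of a finite Galois level fixing the prime under `A` lifts to one fixing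
the prime of `A`. -/
lemma exists_smul_placeIdeal_eq_extending (A : ValuationSubring Ω) (F : IntermediateField ℚ Ω)
    [FiniteDimensional ℚ F] [IsGalois ℚ F] (g : F ≃ₐ[ℚ] F)
    (hg : g • (placeIdeal A).under (𝓞 F) = (placeIdeal A).under (𝓞 F)) :
    ∃ σ : G_ℚ, σ • placeIdeal A = placeIdeal A ∧ ∀ x : F, σ (x : Ω) = (g x : Ω) := by
  let : TopologicalSpace (𝓞 Ω) := ⊥
  have : DiscreteTopology (𝓞 Ω) := ⟨rfl⟩
  have := continuousSMul_ringOfIntegers F
  let σ₀ : G_ℚ := g.liftNormal Ω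
  have hσ₀ : ∀ x : F, σ₀ (x : Ω) = (g x : Ω) := fun x => g.liftNormal_commutes Ω x
  set Q := placeIdeal A with hQ
  have hunder : (σ₀ • Q).under (𝓞 F) = Q.under (𝓞 F) := by
    ext b
    conv_rhs => rw [← hg, Ideal.mem_pointwise_smul_iff_inv_smul_mem]
    simp only [Ideal.mem_comap, Ideal.mem_pointwise_smul_iff_inv_smul_mem]
    have h1 : σ₀⁻¹ • algebraMap (𝓞 F) (𝓞 Ω) b
        = algebraMap (𝓞 F) (𝓞 Ω) (g⁻¹ • b) := by
      rw [inv_smul_eq_iff]
      apply RingOfIntegers.coe_injective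
      show ((b : F) : Ω) = σ₀ ((g⁻¹ (b : F) : F) : Ω)
      rw [hσ₀, ← AlgEquiv.mul_apply, mul_inv_cancel, AlgEquiv.one_apply]
    rw [h1]
  obtain ⟨τ, hτ⟩ := Algebra.IsInvariant.exists_smul_of_under_eq_of_profinite
    (A := 𝓞 F) (G := Ω ≃ₐ[F] Ω) (σ₀ • Q) Q hunder
  refine ⟨τ.restrictScalars ℚ * σ₀, ?_, fun x => ?_⟩
  · rw [mul_smul]
    exact hτ.symm
  · show τ (σ₀ (x : Ω)) = _
    rw [hσ₀]
    exact τ.commutes (g x)

/-- An element of the decomposition group of a finite Galois level lifts to the decomposition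
group of `A`. -/
theorem exists_mem_decompositionSubgroup_extending {A : ValuationSubring Ω} {q : ℕ} (hq : q ≠ 0)
    (hA : A.LiesOverPrime q) (F : IntermediateField ℚ Ω) [FiniteDimensional ℚ F] [IsGalois ℚ F]
    (g : F ≃ₐ[ℚ] F)
    (hg : g • (placeIdeal A).under (𝓞 F) = (placeIdeal A).under (𝓞 F)) :
    ∃ σ ∈ A.decompositionSubgroup ℚ, ∀ x : F, σ (x : Ω) = (g x : Ω) := by
  obtain ⟨σ, hσ, hx⟩ := exists_smul_placeIdeal_eq_extending A F g hg
  exact ⟨σ, mem_decompositionSubgroup_of_smul_placeIdeal_eq hq hA hσ, hx⟩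

/-- Every nonzero prime of a subfield of `ℚ̄` is the prime under some valuation subring. -/
theorem exists_valuationSubring_over (F : IntermediateField ℚ Ω) (P : Ideal (𝓞 F)) [P.IsPrime] :
    ∃ A : ValuationSubring Ω, P ≤ (placeIdeal A).under (𝓞 F) := by
  have : Algebra.IsIntegral (𝓞 F) (𝓞 Ω) :=
    let : TopologicalSpace (𝓞 Ω) := ⊥
    have : DiscreteTopology (𝓞 Ω) := ⟨rfl⟩
    have := continuousSMul_ringOfIntegers F
    Algebra.IsInvariant.isIntegral_of_profinite (G := Ω ≃ₐ[F] Ω)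
  let φ : 𝓞 F →+* Ω := (algebraMap F Ω).comp (algebraMap (𝓞 F) F)
  have hφ : Function.Injective φ :=
    (algebraMap F Ω).injective.comp RingOfIntegers.coe_injective
  let e : 𝓞 F ≃+* φ.range := RingEquiv.ofBijective φ.rangeRestrict
    ⟨fun a b h => hφ (φ.coe_rangeRestrict a ▸ φ.coe_rangeRestrict b ▸ congrArg (fun t : φ.range => (t : Ω)) h), φ.rangeRestrict_surjective⟩
  obtain ⟨A, -, hA⟩ := Ideal.image_subset_nonunits_valuationSubring (P.comap e.symm.toRingHom)
    (Ideal.comap_ne_top _ Ideal.IsPrime.ne_top')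
  refine ⟨A, fun b hb => ?_⟩
  rw [Ideal.mem_comap, mem_placeIdeal]
  have := hA ⟨e b, by rw [SetLike.mem_coe, Ideal.mem_comap]; simpa using hb, rfl⟩
  exact this

/-- An element of the inertia group of a finite Galois level lifts to the inertia group of `A`. -/
theorem exists_mem_inertiaSubgroupIn_extending {A : ValuationSubring Ω} {q : ℕ} (hq : q ≠ 0)
    (hA : A.LiesOverPrime q) (F : IntermediateField ℚ Ω) [FiniteDimensional ℚ F] [IsGalois ℚ F]
    (g : F ≃ₐ[ℚ] F)
    (hg : ∀ b : 𝓞 F, (((g • b - b : 𝓞 F) : F) : Ω) ∈ A.nonunits) :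
    ∃ σ ∈ A.inertiaSubgroupIn ℚ, ∀ x : F, σ (x : Ω) = (g x : Ω) := by
  let : TopologicalSpace (𝓞 Ω) := ⊥
  have : DiscreteTopology (𝓞 Ω) := ⟨rfl⟩
  have := continuousSMul_ringOfIntegers F
  set Q := placeIdeal A with hQ
  have hgP : g ∈ (Q.under (𝓞 F)).inertia (F ≃ₐ[ℚ] F) := fun b => by
    show g • b - b ∈ Q.under (𝓞 F)
    rw [Ideal.mem_comap, hQ, mem_placeIdeal]
    exact hg b
  obtain ⟨σ₁, hσ₁Q, hσ₁F⟩ := exists_smul_placeIdeal_eq_extending A F g
    (Ideal.inertia_le_stabilizer (Q.under (𝓞 F)) hgP)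
  -- step 2: remove the action on the residue ring
  let e : 𝓞 Ω ⧸ Q ≃+* 𝓞 Ω ⧸ Q :=
    Ideal.quotientEquiv Q Q (MulSemiringAction.toRingEquiv G_ℚ (𝓞 Ω) σ₁) hσ₁Q.symm
  let P : Ideal (𝓞 F) := Q.under (𝓞 F)
  let ψ : (𝓞 Ω ⧸ Q) ≃ₐ[𝓞 F ⧸ P] (𝓞 Ω ⧸ Q) := AlgEquiv.ofRingEquiv (f := e) fun r => by
    obtain ⟨b, rfl⟩ := Ideal.Quotient.mk_surjective r
    show Ideal.Quotient.mk Q (σ₁ • algebraMap (𝓞 F) (𝓞 Ω) b)
      = Ideal.Quotient.mk Q (algebraMap (𝓞 F) (𝓞 Ω) b)
    rw [Ideal.Quotient.mk_eq_mk_iff_sub_mem]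
    rw [hQ, mem_placeIdeal]
    convert hg b using 1
    show σ₁ ((b : F) : Ω) - ((b : F) : Ω) = ((g (b : F) - (b : F) : F) : Ω)
    rw [hσ₁F]
    rfl
  obtain ⟨τ₂, hτ₂⟩ := Ideal.Quotient.stabilizerHom_surjective_of_profinite
    (G := Ω ≃ₐ[F] Ω) P Q ψ
  refine ⟨(τ₂ : Ω ≃ₐ[F] Ω)⁻¹.restrictScalars ℚ * σ₁, mem_inertiaSubgroupIn_of_forall hq hA ?_, ?_⟩
  · intro b
    have h1 := DFunLike.congr_fun hτ₂ (Ideal.Quotient.mk Q b)
    have h2 : (τ₂ : Ω ≃ₐ[F] Ω) • b - σ₁ • b ∈ Q := Ideal.Quotient.eq.mp h1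
    have h3 : (τ₂ : Ω ≃ₐ[F] Ω)⁻¹ • Q = Q := (τ₂⁻¹).2
    have h4 := Ideal.smul_mem_pointwise_smul (τ₂ : Ω ≃ₐ[F] Ω)⁻¹ _ _ h2
    rw [h3, smul_sub, inv_smul_smul] at h4
    have h5 := Q.neg_mem h4
    rw [neg_sub] at h5
    exact h5
  · intro x
    show ((τ₂ : Ω ≃ₐ[F] Ω)⁻¹) (σ₁ (x : Ω)) = _
    rw [hσ₁F]
    exact ((τ₂ : Ω ≃ₐ[F] Ω)⁻¹).commutes (g x)

/-- **Minkowski**: an open normal subgroup of `G_ℚ` containing for every prime `q` the inertia
group of some place over `q` is the whole group. -/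
theorem subgroup_eq_top_of_inertia_le (H : Subgroup G_ℚ) [H.Normal]
    (hopen : ∃ F₀ : IntermediateField ℚ Ω, FiniteDimensional ℚ F₀ ∧ F₀.fixingSubgroup ≤ H)
    (hram : ∀ q : ℕ, q.Prime → ∃ A : ValuationSubring Ω,
      A.LiesOverPrime q ∧ A.inertiaSubgroupIn ℚ ≤ H) :
    H = ⊤ := by
  obtain ⟨F₀, hF₀, hle⟩ := hopen
  have := hF₀
  have hH : IsOpen (H : Set G_ℚ) := Subgroup.isOpen_mono hle F₀.fixingSubgroup_isOpen
  let F := IntermediateField.fixedField H
  have hFle : F ≤ F₀ := by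
    rw [← InfiniteGalois.fixedField_fixingSubgroup F₀]
    exact IntermediateField.fixedField_antitone hle
  have : FiniteDimensional ℚ F :=
    FiniteDimensional.of_injective (IntermediateField.inclusion hFle).toLinearMap
      (IntermediateField.inclusion_injective hFle)
  have hfix : F.fixingSubgroup = H :=
    InfiniteGalois.fixingSubgroup_fixedField ⟨H, H.isClosed_of_isOpen hH⟩
  have : IsGalois ℚ F := (InfiniteGalois.normal_iff_isGalois F).mp (by rw [hfix]; infer_instance)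
  by_contra hne
  have hrank : 1 < Module.finrank ℚ F := by
    rcases (Nat.one_le_iff_ne_zero.mpr (Module.finrank_pos (R := ℚ) (M := F)).ne').lt_or_eq with
      h | h
    · exact h
    · exfalso
      apply hne
      rw [← hfix, IntermediateField.finrank_eq_one_iff.mp h.symm, IntermediateField.fixingSubgroup_bot]
  have : NumberField F := { to_charZero := inferInstance, to_finiteDimensional := inferInstance }
  obtain ⟨q, hq, hQram⟩ :=
    NumberField.exists_not_isUnramifiedAt_int_of_isGalois (K := F) (𝒪 := 𝓞 F) hrank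
  obtain ⟨A, hA, hAH⟩ := hram q hq
  let P : Ideal (𝓞 F) := (placeIdeal A).under (𝓞 F)
  have hqP : (q : 𝓞 F) ∈ P := by
    simp only [P, Ideal.mem_comap, map_natCast, mem_placeIdeal]
    exact hA
  have hnr := hQram P inferInstance hqP
  -- the inertia group of `P` is nontrivial
  have hinert : P.inertia (F ≃ₐ[ℚ] F) ≠ ⊥ := by
    intro hbot
    apply hnr
    have : IsGaloisGroup (F ≃ₐ[ℚ] F) ℤ (𝓞 F) :=
      IsGaloisGroup.of_isFractionRing (F ≃ₐ[ℚ] F) ℤ (𝓞 F) ℚ F
    have hPu : P.under ℤ = Ideal.span {(q : ℤ)} := by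
      refine (Ideal.IsMaximal.eq_of_le
        (PrincipalIdealRing.isMaximal_of_irreducible (Nat.prime_iff_prime_int.mp hq).irreducible)
        (Ideal.IsPrime.ne_top inferInstance) ?_).symm
      rw [Ideal.span_le, Set.singleton_subset_iff]
      show algebraMap ℤ (𝓞 F) (q : ℤ) ∈ P
      simpa using hqP
    have : P.LiesOver (Ideal.span {(q : ℤ)}) := ⟨hPu.symm⟩
    have : (Ideal.span {(q : ℤ)}).IsMaximal :=
      PrincipalIdealRing.isMaximal_of_irreducible (Nat.prime_iff_prime_int.mp hq).irreducible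
    have : Finite (ℤ ⧸ Ideal.span {(q : ℤ)}) :=
      have : NeZero q := ⟨hq.ne_zero⟩
      Finite.of_equiv _ (Int.quotientSpanNatEquivZMod q).symm.toEquiv
    have : Finite (Ideal.span {(q : ℤ)}).ResidueField :=
      Finite.of_surjective _ (Ideal.bijective_algebraMap_quotient_residueField _).2
    have hcard := Ideal.card_inertia_eq_ramificationIdxIn (G := F ≃ₐ[ℚ] F)
      (Ideal.span {(q : ℤ)}) P
    rw [hbot, Subgroup.card_bot, Ideal.ramificationIdxIn_eq_ramificationIdx _ P (F ≃ₐ[ℚ] F)]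
      at hcard
    exact Ideal.ramificationIdx_eq_one_iff.mp hcard.symm
  obtain ⟨⟨g, hg⟩, hg1⟩ :=
    @exists_ne _ ((Subgroup.nontrivial_iff_ne_bot _).mpr hinert) (1 : P.inertia (F ≃ₐ[ℚ] F))
  obtain ⟨σ, hσ, hσg⟩ := exists_mem_inertiaSubgroupIn_extending hq.ne_zero hA F g fun b => by
    have h := hg b
    change g • b - b ∈ P at h
    exact mem_placeIdeal.mp (Ideal.mem_comap.mp h)
  have hσF : σ ∈ F.fixingSubgroup := hfix.symm ▸ hAH hσ
  apply hg1
  apply Subtype.ext
  apply AlgEquiv.ext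
  intro x
  apply Subtype.ext
  show ((g x : F) : Ω) = (x : Ω)
  rw [← hσg]
  exact (IntermediateField.mem_fixingSubgroup_iff F σ).mp hσF _ x.2

end Fermat.Agent.FreyReducible
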