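import Mathlib
import Fermat.Agent.FreyReducible.InertiaLift

/-!
# Arithmetic of a place of `ℚ̄` over a prime, and roots of integer polynomials

* values of integers and rationals at a place over `q`;
* the decomposition group preserves the valuation;
* `large_roots_mem`: a polynomial over `ℤ` with leading coefficient of value at least that of `q`
  has all its non-integral roots in any set of non-integral roots with rational product.
-/

open Polynomial

namespace Fermat.Agent.FreyReducible

section Basic

variable {L : Type*} [Field L] {A : ValuationSubring L} {q : ℕ}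

lemma valuation_natCast_prime_lt (hA : A.LiesOverPrime q) : A.valuation (q : L) < 1 :=
  A.mem_nonunits_iff.mp hA

lemma valuation_intCast_le_one (A : ValuationSubring L) (n : ℤ) : A.valuation (n : L) ≤ 1 :=
  (A.valuation_le_one_iff _).mpr (intCast_mem A.toSubring n)

lemma valuation_intCast_lt_one_iff (hq : q.Prime) (hA : A.LiesOverPrime q) (n : ℤ) :
    A.valuation (n : L) < 1 ↔ (q : ℤ) ∣ n := by
  constructor
  · intro hn
    by_contra hdvd
    obtain ⟨a, b, hab⟩ := (Prime.coprime_iff_not_dvd (Nat.prime_iff_prime_int.mp hq)).mpr hdvd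
    have h1 : (1 : L) = (a : L) * q + (b : L) * n := by
      simpa using congrArg (Int.cast : ℤ → L) hab.symm
    have : A.valuation (1 : L) < 1 := by
      rw [h1]
      refine A.valuation.map_add_lt ?_ ?_ <;> rw [map_mul]
      · exact mul_lt_one_of_nonneg_of_lt_one_right (valuation_intCast_le_one A a) zero_le
          (valuation_natCast_prime_lt hA)
      · exact mul_lt_one_of_nonneg_of_lt_one_right (valuation_intCast_le_one A b) zero_le hn
    rw [map_one] at this
    exact lt_irrefl _ this
  · rintro ⟨k, rfl⟩
    rw [Int.cast_mul, map_mul, Int.cast_natCast]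
    exact mul_lt_one_of_nonneg_of_lt_one_left zero_le (valuation_natCast_prime_lt hA)
      (valuation_intCast_le_one A k)

lemma valuation_intCast_eq_one (hq : q.Prime) (hA : A.LiesOverPrime q) {n : ℤ}
    (hn : ¬(q : ℤ) ∣ n) : A.valuation (n : L) = 1 :=
  le_antisymm (valuation_intCast_le_one A n)
    (not_lt.mp fun h => hn ((valuation_intCast_lt_one_iff hq hA n).mp h))

/-- Integers prime to `q` are units at a place over `q`. -/
lemma valuation_natCast_eq_one (hq : q.Prime) (hA : A.LiesOverPrime q) {n : ℕ}
    (hn : ¬q ∣ n) : A.valuation (n : L) = 1 := by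
  have := valuation_intCast_eq_one hq hA (n := (n : ℤ)) (by exact_mod_cast hn)
  simpa using this

/-- A non-integral rational has the prime in its denominator. -/
lemma one_le_valuation_prime_mul_rat [CharZero L] (hq : q.Prime) (hA : A.LiesOverPrime q) (r : ℚ)
    (hr : 1 < A.valuation (r : L)) : 1 ≤ A.valuation (q : L) * A.valuation (r : L) := by
  have hden : (q : ℤ) ∣ (r.den : ℤ) := by
    by_contra h
    have h1 : A.valuation ((r.den : ℤ) : L) = 1 := valuation_intCast_eq_one hq hA h
    rw [Int.cast_natCast] at h1
    rw [Rat.cast_def, map_div₀, h1, div_one] at hr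
    exact (valuation_intCast_le_one A r.num).not_gt hr
  obtain ⟨d, hd⟩ := Int.natCast_dvd_natCast.mp hden
  have hnum : A.valuation (r.num : L) = 1 := by
    refine valuation_intCast_eq_one hq hA fun h => ?_
    have h1 : q ∣ r.num.natAbs := Int.natCast_dvd.mp h
    exact hq.one_lt.ne' (Nat.eq_one_of_dvd_coprimes r.reduced h1 (hd ▸ dvd_mul_right q d))
  have hd0 : (d : L) ≠ 0 := Nat.cast_ne_zero.mpr fun h => r.den_ne_zero (by rw [hd, h, mul_zero])
  have hq0 : (q : L) ≠ 0 := Nat.cast_ne_zero.mpr hq.ne_zero
  have e : (q : L) * (r : L) = (r.num : L) / (d : L) := by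
    rw [Rat.cast_def, hd, Nat.cast_mul]
    field_simp
  rw [← map_mul, e, map_div₀, hnum]
  exact (one_le_div₀ (A.valuation.pos_iff.mpr hd0)).mpr
    (by simpa using valuation_intCast_le_one A (d : ℤ))

lemma valuation_apply_lt_one_iff {K : Type*} [Field K] [Algebra K L] {σ : L ≃ₐ[K] L}
    (hσ : σ ∈ A.decompositionSubgroup K) {z : L} :
    A.valuation (σ z) < 1 ↔ A.valuation z < 1 := by
  rw [← A.mem_nonunits_iff, ← A.mem_nonunits_iff, A.mem_nonunits_iff_or, A.mem_nonunits_iff_or,
    ← map_inv₀, apply_mem_of_mem_decompositionSubgroup A hσ, EmbeddingLike.map_eq_zero_iff]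

/-- The decomposition group preserves the valuation. -/
lemma valuation_apply {K : Type*} [Field K] [Algebra K L] [Algebra.IsAlgebraic K L]
    {σ : L ≃ₐ[K] L} (hσ : σ ∈ A.decompositionSubgroup K) (z : L) :
    A.valuation (σ z) = A.valuation z := by
  rcases eq_or_ne z 0 with rfl | hz
  · simp
  -- otherwise the orbit of `z` would be infinite
  suffices h : ∀ (τ : L ≃ₐ[K] L), τ ∈ A.decompositionSubgroup K →
      ∀ w : L, w ≠ 0 → ¬A.valuation (τ w) < A.valuation w by
    refine le_antisymm (not_lt.mp fun hlt => ?_) (not_lt.mp (h σ hσ z hz))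
    refine h σ⁻¹ (inv_mem hσ) (σ z) (by simpa using hz) ?_
    rwa [← AlgEquiv.mul_apply, inv_mul_cancel, AlgEquiv.one_apply]
  intro τ hτ w hw hlt
  have step : ∀ k : ℕ, A.valuation (τ^[k + 1] w) < A.valuation (τ^[k] w) := by
    intro k
    induction k with
    | zero => exact hlt
    | succ k ih =>
      rw [Function.iterate_succ_apply' τ (k + 1), Function.iterate_succ_apply' τ k] at *
      have hk0 : τ^[k] w ≠ 0 := by
        have : Function.Injective (τ^[k]) := τ.injective.iterate k
        intro h0
        apply hw
        apply this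
        rw [h0, Function.iterate_fixed (map_zero τ) k]
      have hlt' : A.valuation (τ (τ^[k] w) / τ^[k] w) < 1 := by
        rw [map_div₀]
        exact (div_lt_one₀ (A.valuation.pos_iff.mpr hk0)).mpr ih
      rw [← valuation_apply_lt_one_iff hτ, map_div₀, map_div₀,
        div_lt_one₀ (A.valuation.pos_iff.mpr (by simpa using hk0))] at hlt'
      exact hlt'
  have hinj : Function.Injective fun k : ℕ => τ^[k] w :=
    Function.Injective.of_comp (f := A.valuation) (strictAnti_nat_of_succ_lt step).injective
  have hroot : ∀ k : ℕ, τ^[k] w ∈ (minpoly K w).rootSet L := by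
    intro k
    induction k with
    | zero =>
      exact Polynomial.mem_rootSet.mpr
        ⟨minpoly.ne_zero (Algebra.IsIntegral.isIntegral w), minpoly.aeval K w⟩
    | succ k ih =>
      rw [Function.iterate_succ_apply']
      rw [Polynomial.mem_rootSet] at ih ⊢
      refine ⟨ih.1, ?_⟩
      rw [Polynomial.aeval_algHom_apply τ, ih.2, map_zero]
  exact Set.infinite_range_of_injective hinj
    ((Polynomial.rootSet_finite (minpoly K w) L).subset (Set.range_subset_iff.mpr hroot))

end Basic

section Roots

variable {L : Type*} [Field L] [IsAlgClosed L] [CharZero L]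

/-- Gauss' lemma for a place: the leading coefficient times all non-integral roots is integral. -/
lemma valuation_leadingCoeff_mul_large_roots (A : ValuationSubring L) (f : ℤ[X]) :
    A.valuation (f.leadingCoeff : L) *
      A.valuation ((f.map (Int.castRingHom L)).roots.filter (fun r => 1 < A.valuation r)).prod
        ≤ 1 := by
  classical
  set fL := f.map (Int.castRingHom L) with hfL
  set R := fL.roots with hR
  set Rb := R.filter (fun r => 1 < A.valuation r)
  set Rs := R.filter (fun r => ¬1 < A.valuation r)
  have hlc : fL.leadingCoeff = (f.leadingCoeff : L) :=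
    Polynomial.leadingCoeff_map_of_injective (RingHom.injective_int _) _
  have hsplit := (IsAlgClosed.splits fL).eq_prod_roots
  rw [← hR, hlc, ← Multiset.filter_add_not (fun r => 1 < A.valuation r) R, Multiset.map_add,
    Multiset.prod_add] at hsplit
  have hs : ∀ r ∈ Rs, r ∈ A := fun r hr =>
    (A.valuation_le_one_iff r).mp (not_lt.mp (Multiset.mem_filter.mp hr).2)
  let Rs' : Multiset A := Rs.attach.map fun r => ⟨r.1, hs r.1 r.2⟩
  let h : A[X] := (Rs'.map fun r => X - C r).prod
  have hmonic : h.Monic := monic_multiset_prod_of_monic _ _ fun r _ => monic_X_sub_C r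
  have hRs' : Rs'.map Subtype.val = Rs := by
    simp only [Rs', Multiset.map_map, Function.comp_def]
    exact Rs.attach_map_val
  have hmap : h.map A.subtype = (Rs.map fun r => X - C r).prod := by
    simp only [h]
    rw [Polynomial.map_multiset_prod, Multiset.map_map]
    conv_rhs => rw [← hRs', Multiset.map_map]
    simp
  have hfA : (f.map (Int.castRingHom A)).map A.subtype = fL := by
    rw [hfL, Polynomial.map_map]
    congr 1
  have hdiv : ((f.map (Int.castRingHom A)) /ₘ h).map A.subtype
      = C (f.leadingCoeff : L) * (Rb.map fun r => X - C r).prod := by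
    rw [Polynomial.map_divByMonic _ hmonic, hfA, hmap]
    conv_lhs => rw [hsplit, ← mul_assoc, mul_comm _ (Multiset.map _ Rs).prod]
    exact mul_divByMonic_cancel_left _
      (monic_multiset_prod_of_monic Rs (fun r => X - C r) fun r _ => monic_X_sub_C r)
  have h0 := congrArg (fun g => A.valuation (g.coeff 0)) hdiv
  simp only [coeff_map, mul_coeff_zero, coeff_C_zero, coeff_zero_eq_eval_zero (Rb.map _).prod,
    eval_multiset_prod, Multiset.map_map, Function.comp_def, eval_sub, eval_X, eval_C, zero_sub,
    map_mul] at h0
  have hle : A.valuation (A.subtype ((f.map (Int.castRingHom A) /ₘ h).coeff 0)) ≤ 1 :=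
    A.valuation_le_one _
  rw [h0] at hle
  refine le_trans (le_of_eq ?_) hle
  congr 1
  rw [map_multiset_prod, map_multiset_prod, Multiset.map_map]
  simp

/-- If the leading coefficient is a unit, every root is integral. -/
lemma valuation_root_le_one (A : ValuationSubring L) {f : ℤ[X]}
    (hlc : A.valuation (f.leadingCoeff : L) = 1) {x : L}
    (hx : (f.map (Int.castRingHom L)).IsRoot x) : A.valuation x ≤ 1 := by
  by_contra hcon
  rw [not_le] at hcon
  have hf : f ≠ 0 := fun h => by simp [h] at hlc
  have hmem : x ∈ (f.map (Int.castRingHom L)).roots.filter (fun r => 1 < A.valuation r) :=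
    Multiset.mem_filter.mpr
      ⟨(mem_roots ((Polynomial.map_ne_zero_iff (RingHom.injective_int _)).mpr hf)).mpr hx, hcon⟩
  obtain ⟨t, ht⟩ := Multiset.exists_cons_of_mem hmem
  have h := valuation_leadingCoeff_mul_large_roots A f
  rw [ht, Multiset.prod_cons, hlc, one_mul, map_mul, map_multiset_prod] at h
  have h1 : 1 ≤ (t.map A.valuation).prod := Multiset.one_le_prod fun y hy => by
    obtain ⟨r, hr, rfl⟩ := Multiset.mem_map.mp hy
    exact (Multiset.mem_filter.mp (ht ▸ Multiset.mem_cons_of_mem hr)).2.le
  exact absurd ((le_mul_of_one_le_right' h1).trans h) hcon.not_ge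

/-- Non-integral roots are exhausted by any set of them whose product is rational, when the
leading coefficient is the prime. -/
lemma large_roots_mem {A : ValuationSubring L} {q : ℕ} (hq : q.Prime) (hA : A.LiesOverPrime q)
    {f : ℤ[X]} (hlc : f.leadingCoeff = (q : ℤ)) (S : Finset L) (hne : S.Nonempty)
    (hroot : ∀ s ∈ S, (f.map (Int.castRingHom L)).IsRoot s)
    (hbig : ∀ s ∈ S, 1 < A.valuation s) (hrat : ∃ r : ℚ, (r : L) = ∏ s ∈ S, s)
    {x : L} (hx : (f.map (Int.castRingHom L)).IsRoot x) (hxbig : 1 < A.valuation x) : x ∈ S := by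
  classical
  by_contra hxS
  set R := (f.map (Int.castRingHom L)).roots.filter (fun r => 1 < A.valuation r) with hRdef
  have hf : f ≠ 0 := fun h => hq.ne_zero (by rw [h, leadingCoeff_zero] at hlc; exact_mod_cast hlc.symm)
  have hf' : f.map (Int.castRingHom L) ≠ 0 :=
    (Polynomial.map_ne_zero_iff (RingHom.injective_int _)).mpr hf
  have hmem : ∀ s, (f.map (Int.castRingHom L)).IsRoot s → 1 < A.valuation s → s ∈ R :=
    fun s h1 h2 => Multiset.mem_filter.mpr ⟨(mem_roots hf').mpr h1, h2⟩
  have hsub : (insert x S).val ≤ R := by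
    rw [Multiset.le_iff_subset (insert x S).nodup]
    intro s hs
    rcases Finset.mem_insert.mp hs with rfl | h
    · exact hmem _ hx hxbig
    · exact hmem _ (hroot s h) (hbig s h)
  obtain ⟨t, ht⟩ := Multiset.le_iff_exists_add.mp hsub
  have h := valuation_leadingCoeff_mul_large_roots A f
  rw [← hRdef, ht, Multiset.prod_add, hlc] at h
  rw [map_mul A.valuation _ t.prod, ← Multiset.map_id' (insert x S).val,
    ← Finset.prod_eq_multiset_prod, Finset.prod_insert hxS, map_mul] at h
  simp only [Int.cast_natCast] at h
  obtain ⟨r, hr⟩ := hrat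
  have hr1 : 1 < A.valuation (r : L) := by
    rw [hr, map_prod]
    obtain ⟨s, hs⟩ := hne
    exact (hbig s hs).trans_le (Finset.single_le_prod' (fun i hi => (hbig i hi).le) hs)
  have h1 := one_le_valuation_prime_mul_rat hq hA r hr1
  rw [hr] at h1
  have h2 : 1 ≤ A.valuation t.prod := by
    rw [map_multiset_prod]
    refine Multiset.one_le_prod fun y hy => ?_
    obtain ⟨s, hs, rfl⟩ := Multiset.mem_map.mp hy
    have : s ∈ R := ht ▸ Multiset.mem_add.mpr (Or.inr hs)
    exact (Multiset.mem_filter.mp this).2.le
  have : A.valuation x ≤ 1 := by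
    calc A.valuation x ≤ A.valuation x * (A.valuation (q : L) * A.valuation (∏ s ∈ S, s)) :=
          le_mul_of_one_le_right' h1
      _ ≤ A.valuation x * (A.valuation (q : L) * A.valuation (∏ s ∈ S, s)) * A.valuation t.prod :=
          le_mul_of_one_le_right' h2
      _ = _ := by ac_rfl
      _ ≤ 1 := h
  exact this.not_gt hxbig

end Roots

end Fermat.Agent.FreyReducible
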