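import Mathlib

/-!
# Valuation estimates for the chord and tangent construction

Over a field `L` with a valuation `v`, for a Weierstrass curve with `v`-integral coefficients:
* `largePoints`: the points with non-integral `x`, together with `0`, form a subgroup;
* `smoothPoints`: for a node `(x₀, y₀)` which is a 2-torsion point, the points with `x` not
  congruent to `x₀` form, together with `0`, a subgroup;
* two integral points with the same nonsingular reduction differ by a point of `largePoints`;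
* `sub_mem_smoothPoints`: a "small" automorphism moves a point by an element of `smoothPoints`.

Everything is read off from the coefficients of the cubic cut out by the chord.
-/

open WeierstrassCurve WeierstrassCurve.Affine WeierstrassCurve.Affine.Point

namespace Fermat.Agent.FreyReducible

variable {L : Type*} [Field L] {Γ₀ : Type*} [LinearOrderedCommGroupWithZero Γ₀]

/-! ## Valuation helpers -/

section ValuationHelpers

variable (v : Valuation L Γ₀)

lemma val_natCast_le_one (n : ℕ) : v (n : L) ≤ 1 := by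
  induction n with
  | zero => simp
  | succ n ih =>
    rw [Nat.cast_succ]
    exact v.map_add_le ih v.map_one.le

lemma val_ofNat_le_one (n : ℕ) [n.AtLeastTwo] : v (OfNat.ofNat n : L) ≤ 1 :=
  val_natCast_le_one v n

lemma val_mul_le_of_le_one {a b : L} {B : Γ₀} (ha : v a ≤ 1) (hb : v b ≤ B) : v (a * b) ≤ B := by
  rw [map_mul]
  calc v a * v b ≤ 1 * B := mul_le_mul' ha hb
    _ = B := one_mul B

lemma val_mul_lt_of_le_one {a b : L} {B : Γ₀} (ha : v a ≤ 1) (hb : v b < B) : v (a * b) < B := by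
  rw [map_mul]
  calc v a * v b ≤ 1 * v b := mul_le_mul' ha le_rfl
    _ < B := by rw [one_mul]; exact hb

lemma sq_lt_sq_imp {a b : Γ₀} (h : a ^ 2 < b ^ 2) : a < b :=
  lt_of_pow_lt_pow_left₀ 2 zero_le h

/-- In `ℓ² + a ℓ + b` the square dominates once `ℓ` is non-integral. -/
lemma val_quadratic_eq_sq {l a b : L} (ha : v a ≤ 1) (hb : v b ≤ 1) (hl : 1 < v l) :
    v (l ^ 2 + a * l + b) = v l ^ 2 := by
  have h1 : v l < v l ^ 2 := by
    calc v l = v l * 1 := (mul_one _).symm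
      _ < v l * v l := mul_lt_mul_of_pos_left hl (zero_lt_one.trans hl)
      _ = v l ^ 2 := (sq _).symm
  have h2 : v (a * l) < v (l ^ 2) := by
    rw [map_pow]; exact (val_mul_le_of_le_one v ha le_rfl).trans_lt h1
  have h3 : v b < v (l ^ 2) := by rw [map_pow]; exact hb.trans_lt (hl.trans h1)
  rw [add_assoc, v.map_add_eq_of_lt_left (v.map_add_lt h2 h3), map_pow]

lemma sq_le_of_quadratic {l a b : L} {B : Γ₀} (ha : v a ≤ 1) (hb : v b ≤ 1) (hB : 1 ≤ B)
    (h : v (l ^ 2 + a * l + b) ≤ B) : v l ^ 2 ≤ B := by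
  rcases le_or_gt (v l) 1 with hl | hl
  · exact (pow_le_one' hl 2).trans hB
  · rwa [val_quadratic_eq_sq v ha hb hl] at h

end ValuationHelpers

variable [DecidableEq L]

/-! ## The three roots of the chord cubic -/

lemma vieta {W : Affine L} {x₁ x₂ y₁ y₂ : L} (h₁ : W.Equation x₁ y₁) (h₂ : W.Equation x₂ y₂)
    (hxy : ¬(x₁ = x₂ ∧ y₁ = W.negY x₂ y₂)) :
    let l := W.slope x₁ x₂ y₁ y₂
    let x₃ := W.addX x₁ x₂ l
    let n := y₁ - l * x₁
    x₁ * x₂ + x₃ * (x₁ + x₂) = W.a₄ - 2 * l * n - W.a₃ * l - W.a₁ * n ∧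
      x₁ * x₂ * x₃ = n ^ 2 + W.a₃ * n - W.a₆ := by
  intro l x₃ n
  have h := addPolynomial_slope h₁ h₂ hxy
  rw [addPolynomial_eq, neg_inj, Cubic.prod_X_sub_C_eq, Cubic.toPoly_injective, Cubic.mk.injEq]
    at h
  obtain ⟨-, -, hc, hd⟩ := h
  constructor
  · simp only [n, l, x₃] at hc ⊢
    linear_combination -hc
  · simp only [n, l, x₃] at hd ⊢
    linear_combination hd

variable (v : Valuation L Γ₀)

/-- All coefficients of the curve are `v`-integral. -/
structure IntCoeff (W : Affine L) : Prop where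
  a₁ : v W.a₁ ≤ 1
  a₂ : v W.a₂ ≤ 1
  a₃ : v W.a₃ ≤ 1
  a₄ : v W.a₄ ≤ 1
  a₆ : v W.a₆ ≤ 1

/-- `(x₀, y₀)` is a 2-torsion point reducing to a node. -/
structure NodeAt (W : Affine L) (x₀ y₀ : L) : Prop extends IntCoeff v W where
  equation : W.Equation x₀ y₀
  negY_eq : 2 * y₀ + W.a₁ * x₀ + W.a₃ = 0
  val_x₀ : v x₀ ≤ 1
  val_y₀ : v y₀ ≤ 1
  deriv_lt : v (3 * x₀ ^ 2 + 2 * W.a₂ * x₀ + W.a₄ - W.a₁ * y₀) < 1
  deriv_ne : 3 * x₀ ^ 2 + 2 * W.a₂ * x₀ + W.a₄ - W.a₁ * y₀ ≠ 0
  b₂_unit : v (W.b₂ + 12 * x₀) = 1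

/-- Membership predicate for points with non-integral `x` (and `0`). -/
def IsLarge {W : Affine L} : W.Point → Prop
  | .zero => True
  | .some x _ _ => 1 < v x

/-- Membership predicate for points with `x` not congruent to `x₀` (and `0`). -/
def IsSmooth (x₀ : L) {W : Affine L} : W.Point → Prop
  | .zero => True
  | .some x _ _ => 1 ≤ v (x - x₀)

variable {v}

lemma large_addX {W : Affine L} (hW : IntCoeff v W) {x₁ x₂ y₁ y₂ : L}
    (h₁ : W.Equation x₁ y₁) (h₂ : W.Equation x₂ y₂) (hxy : ¬(x₁ = x₂ ∧ y₁ = W.negY x₂ y₂))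
    (hv₁ : 1 < v x₁) (hv₂ : 1 < v x₂) : 1 < v (W.addX x₁ x₂ (W.slope x₁ x₂ y₁ y₂)) := by
  by_contra hcon
  rw [not_lt] at hcon
  obtain ⟨hM, hP⟩ := vieta h₁ h₂ hxy
  set l := W.slope x₁ x₂ y₁ y₂
  set x₃ := W.addX x₁ x₂ l with hx₃
  set n := y₁ - l * x₁
  set V := v x₁ * v x₂ with hV
  have hm : max (v x₁) (v x₂) < V := by
    refine max_lt ?_ ?_
    · calc v x₁ = v x₁ * 1 := (mul_one _).symm
        _ < V := mul_lt_mul_of_pos_left hv₂ (zero_lt_one.trans hv₁)
    · calc v x₂ = 1 * v x₂ := (one_mul _).symm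
        _ < V := mul_lt_mul_of_pos_right hv₁ (zero_lt_one.trans hv₂)
  set m := max (v x₁) (v x₂) with hmdef
  have h1m : 1 < m := hv₁.trans_le (le_max_left _ _)
  have h1V : 1 < V := h1m.trans hm
  have hl : v l ^ 2 ≤ m := by
    refine sq_le_of_quadratic v hW.a₁ (b := -W.a₂) (by rw [Valuation.map_neg]; exact hW.a₂) h1m.le ?_
    rw [show l ^ 2 + W.a₁ * l + -W.a₂ = x₁ + x₂ + x₃ by rw [hx₃, addX]; ring]
    exact v.map_add_le (v.map_add_le (le_max_left _ _) (le_max_right _ _)) (hcon.trans h1m.le)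
  have hn : v n ^ 2 ≤ V := by
    refine sq_le_of_quadratic v hW.a₃ (b := -W.a₆) (by rw [Valuation.map_neg]; exact hW.a₆) h1V.le ?_
    rw [← sub_eq_add_neg, ← hP, map_mul, map_mul]
    calc V * v x₃ ≤ V * 1 := mul_le_mul' le_rfl hcon
      _ = V := mul_one V
  have hl' : v l < V := sq_lt_sq_imp <| hl.trans_lt <| hm.trans_le <| by
    calc V = V * 1 := (mul_one _).symm
      _ ≤ V * V := mul_le_mul' le_rfl h1V.le
      _ = V ^ 2 := (sq V).symm
  have hVV : V < V ^ 2 := by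
    calc V = V * 1 := (mul_one _).symm
      _ < V * V := mul_lt_mul_of_pos_left h1V (zero_lt_one.trans h1V)
      _ = V ^ 2 := (sq V).symm
  have hn' : v n < V := sq_lt_sq_imp <| hn.trans_lt hVV
  have hln : v (l * n) < V := sq_lt_sq_imp <| by
    rw [map_mul, mul_pow]
    calc v l ^ 2 * v n ^ 2 ≤ m * V := mul_le_mul' hl hn
      _ < V * V := mul_lt_mul_of_pos_right hm (zero_lt_one.trans h1V)
      _ = V ^ 2 := (sq V).symm
  have hlhs : v (x₁ * x₂ + x₃ * (x₁ + x₂)) = V := by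
    rw [v.map_add_eq_of_lt_left, map_mul]
    rw [map_mul v x₁ x₂, ← hV]
    exact (val_mul_le_of_le_one v hcon (v.map_add x₁ x₂)).trans_lt hm
  have hrhs : v (W.a₄ - 2 * l * n - W.a₃ * l - W.a₁ * n) < V := by
    refine v.map_sub_lt (v.map_sub_lt (v.map_sub_lt (hW.a₄.trans_lt h1V) ?_) ?_)
      (val_mul_lt_of_le_one v hW.a₁ hn')
    · rw [mul_assoc]; exact val_mul_lt_of_le_one v (val_ofNat_le_one v 2) hln
    · exact val_mul_lt_of_le_one v hW.a₃ hl'
  rw [← hM, hlhs] at hrhs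
  exact lt_irrefl _ hrhs

/-- The chord cubic in coordinates centred at the node. -/
lemma vieta_node {W : Affine L} {x₀ y₀ : L} (hN : NodeAt v W x₀ y₀) {x₁ x₂ y₁ y₂ : L}
    (h₁ : W.Equation x₁ y₁) (h₂ : W.Equation x₂ y₂) (hxy : ¬(x₁ = x₂ ∧ y₁ = W.negY x₂ y₂)) :
    let l := W.slope x₁ x₂ y₁ y₂
    let u₁ := x₁ - x₀
    let u₂ := x₂ - x₀
    let u₃ := W.addX x₁ x₂ l - x₀
    let n := (y₁ - y₀) - l * u₁
    u₁ + u₂ + u₃ = l ^ 2 + W.a₁ * l + -(W.a₂ + 3 * x₀) ∧
      u₁ * u₂ + u₃ * (u₁ + u₂) =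
        (3 * x₀ ^ 2 + 2 * W.a₂ * x₀ + W.a₄ - W.a₁ * y₀) - 2 * l * n - W.a₁ * n ∧
      u₁ * u₂ * u₃ = n ^ 2 := by
  intro l u₁ u₂ u₃ n
  obtain ⟨hM, hP⟩ := vieta h₁ h₂ hxy
  have h0 := (W.equation_iff x₀ y₀).mp hN.equation
  have h0' := hN.negY_eq
  refine ⟨by simp only [u₁, u₂, u₃, addX]; ring, ?_, ?_⟩
  · simp only [n, u₁, u₂, u₃, addX, l] at hM ⊢
    linear_combination hM + (-(W.slope x₁ x₂ y₁ y₂)) * h0'
  · simp only [n, u₁, u₂, u₃, addX, l] at hM hP ⊢
    linear_combination hP - x₀ * hM + (y₁ - y₀ - W.slope x₁ x₂ y₁ y₂ * (x₁ - x₀)) * h0' + h0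

lemma smooth_addX {W : Affine L} {x₀ y₀ : L} (hN : NodeAt v W x₀ y₀) {x₁ x₂ y₁ y₂ : L}
    (h₁ : W.Equation x₁ y₁) (h₂ : W.Equation x₂ y₂) (hxy : ¬(x₁ = x₂ ∧ y₁ = W.negY x₂ y₂))
    (hv₁ : 1 ≤ v (x₁ - x₀)) (hv₂ : 1 ≤ v (x₂ - x₀)) :
    1 ≤ v (W.addX x₁ x₂ (W.slope x₁ x₂ y₁ y₂) - x₀) := by
  by_contra hcon
  rw [not_le] at hcon
  obtain ⟨hS, hM, hP⟩ := vieta_node hN h₁ h₂ hxy
  set l := W.slope x₁ x₂ y₁ y₂
  set u₁ := x₁ - x₀
  set u₂ := x₂ - x₀
  set u₃ := W.addX x₁ x₂ l - x₀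
  set n := (y₁ - y₀) - l * u₁
  set V := v u₁ * v u₂ with hV
  set m := max (v u₁) (v u₂) with hmdef
  have h1m : 1 ≤ m := hv₁.trans (le_max_left _ _)
  have hm : m ≤ V := by
    refine max_le ?_ ?_
    · calc v u₁ = v u₁ * 1 := (mul_one _).symm
        _ ≤ V := mul_le_mul' le_rfl hv₂
    · calc v u₂ = 1 * v u₂ := (one_mul _).symm
        _ ≤ V := mul_le_mul' hv₁ le_rfl
  have h1V : 1 ≤ V := h1m.trans hm
  have hVpos : 0 < V := zero_lt_one.trans_le h1V
  have hl : v l ^ 2 ≤ m := by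
    refine sq_le_of_quadratic v hN.a₁ (b := -(W.a₂ + 3 * x₀)) ?_ h1m ?_
    · rw [Valuation.map_neg]
      exact v.map_add_le hN.a₂ (val_mul_le_of_le_one v (val_ofNat_le_one v 3) hN.val_x₀)
    · rw [← hS]
      exact v.map_add_le (v.map_add_le (le_max_left _ _) (le_max_right _ _)) (hcon.le.trans h1m)
  have hn : v n ^ 2 < V := by
    rw [← map_pow, ← hP, map_mul, map_mul]
    calc V * v u₃ < V * 1 := mul_lt_mul_of_pos_left hcon hVpos
      _ = V := mul_one V
  have hVV : V ≤ V ^ 2 := by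
    calc V = V * 1 := (mul_one _).symm
      _ ≤ V * V := mul_le_mul' le_rfl h1V
      _ = V ^ 2 := (sq V).symm
  have hn' : v n < V := sq_lt_sq_imp <| hn.trans_le hVV
  have hln : v (l * n) < V := sq_lt_sq_imp <| by
    rw [map_mul, mul_pow]
    calc v l ^ 2 * v n ^ 2 ≤ m * v n ^ 2 := mul_le_mul' hl le_rfl
      _ < m * V := mul_lt_mul_of_pos_left hn (zero_lt_one.trans_le h1m)
      _ ≤ V * V := mul_le_mul' hm le_rfl
      _ = V ^ 2 := (sq V).symm
  have hlhs : v (u₁ * u₂ + u₃ * (u₁ + u₂)) = V := by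
    rw [v.map_add_eq_of_lt_left, map_mul]
    rw [map_mul v u₁ u₂, ← hV, map_mul]
    calc v u₃ * v (u₁ + u₂) ≤ v u₃ * m := mul_le_mul' le_rfl (v.map_add _ _)
      _ < 1 * m := mul_lt_mul_of_pos_right hcon (zero_lt_one.trans_le h1m)
      _ ≤ V := by rw [one_mul]; exact hm
  have hrhs : v ((3 * x₀ ^ 2 + 2 * W.a₂ * x₀ + W.a₄ - W.a₁ * y₀) - 2 * l * n - W.a₁ * n) < V := by
    refine v.map_sub_lt (v.map_sub_lt (hN.deriv_lt.trans_le h1V) ?_)
      (val_mul_lt_of_le_one v hN.a₁ hn')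
    rw [mul_assoc]; exact val_mul_lt_of_le_one v (val_ofNat_le_one v 2) hln
  rw [← hM, hlhs] at hrhs
  exact lt_irrefl _ hrhs

variable (v)

/-- The subgroup of points with non-integral `x`. -/
def largePoints (W : Affine L) (hW : IntCoeff v W) : AddSubgroup W.Point where
  carrier := {P | IsLarge v P}
  zero_mem' := trivial
  neg_mem' {P} h := by
    rcases P with _ | ⟨x, y, hP⟩
    · exact h
    · exact h
  add_mem' {P Q} hP hQ := by
    rcases P with _ | ⟨x₁, y₁, h₁⟩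
    · show IsLarge v (0 + Q); rwa [zero_add]
    rcases Q with _ | ⟨x₂, y₂, h₂⟩
    · show IsLarge v (Point.some x₁ y₁ h₁ + 0); rwa [add_zero]
    show IsLarge v (Point.some x₁ y₁ h₁ + Point.some x₂ y₂ h₂)
    by_cases hxy : x₁ = x₂ ∧ y₁ = W.negY x₂ y₂
    · rw [add_of_Y_eq hxy.1 hxy.2]; trivial
    · rw [add_some hxy]; exact large_addX hW h₁.1 h₂.1 hxy hP hQ

/-- The subgroup of points not reducing to the node. -/
def smoothPoints (W : Affine L) (x₀ y₀ : L) (hN : NodeAt v W x₀ y₀) : AddSubgroup W.Point where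
  carrier := {P | IsSmooth v x₀ P}
  zero_mem' := trivial
  neg_mem' {P} h := by
    rcases P with _ | ⟨x, y, hP⟩
    · exact h
    · exact h
  add_mem' {P Q} hP hQ := by
    rcases P with _ | ⟨x₁, y₁, h₁⟩
    · show IsSmooth v x₀ (0 + Q); rwa [zero_add]
    rcases Q with _ | ⟨x₂, y₂, h₂⟩
    · show IsSmooth v x₀ (Point.some x₁ y₁ h₁ + 0); rwa [add_zero]
    show IsSmooth v x₀ (Point.some x₁ y₁ h₁ + Point.some x₂ y₂ h₂)
    by_cases hxy : x₁ = x₂ ∧ y₁ = W.negY x₂ y₂
    · rw [add_of_Y_eq hxy.1 hxy.2]; trivial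
    · rw [add_some hxy]; exact smooth_addX hN h₁.1 h₂.1 hxy hP hQ

variable {v}

lemma some_mem_largePoints_iff {W : Affine L} {hW : IntCoeff v W} {x y : L}
    {h : W.Nonsingular x y} : Point.some x y h ∈ largePoints v W hW ↔ 1 < v x :=
  Iff.rfl

lemma some_mem_smoothPoints_iff {W : Affine L} {x₀ y₀ : L} {hN : NodeAt v W x₀ y₀} {x y : L}
    {h : W.Nonsingular x y} : Point.some x y h ∈ smoothPoints v W x₀ y₀ hN ↔ 1 ≤ v (x - x₀) :=
  Iff.rfl

lemma largePoints_le_smoothPoints {W : Affine L} {x₀ y₀ : L} (hN : NodeAt v W x₀ y₀) :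
    largePoints v W hN.toIntCoeff ≤ smoothPoints v W x₀ y₀ hN := by
  rintro (_ | ⟨x, y, h⟩) hP
  · trivial
  · show 1 ≤ v (x - x₀)
    rw [v.map_sub_eq_of_lt_left (hN.val_x₀.trans_lt hP)]
    exact hP.le

/-! ## Points with the same nonsingular reduction -/

/-- The reduction of `(x, y)` is a nonsingular point. -/
def SmoothRed (v : Valuation L Γ₀) (W : Affine L) (x y : L) : Prop :=
  v (2 * y + W.a₁ * x + W.a₃) = 1 ∨ v (3 * x ^ 2 + 2 * W.a₂ * x + W.a₄ - W.a₁ * y) = 1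

lemma sub_mem_largePoints {W : Affine L} (hW : IntCoeff v W) {x y x' y' : L}
    (h : W.Nonsingular x y) (h' : W.Nonsingular x' y') (hx : v x ≤ 1) (hy : v y ≤ 1)
    (hx' : v (x - x') < 1) (hy' : v (y - y') < 1) (hs : SmoothRed v W x y) :
    Point.some x y h - Point.some x' y' h' ∈ largePoints v W hW := by
  by_cases heq : x = x' ∧ y = y'
  · obtain ⟨rfl, rfl⟩ := heq
    rw [sub_self]
    exact zero_mem _
  rw [sub_eq_add_neg, neg_some]
  have hxy : ¬(x = x' ∧ y = W.negY x' (W.negY x' y')) := by rwa [negY_negY]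
  rw [add_some hxy, some_mem_largePoints_iff]
  have hxv : v x' ≤ 1 := by
    rw [show x' = x - (x - x') by ring]; exact v.map_sub_le hx hx'.le
  have hyv : v y' ≤ 1 := by
    rw [show y' = y - (y - y') by ring]; exact v.map_sub_le hy hy'.le
  -- it is enough to see that the slope is non-integral
  suffices hl : 1 < v (W.slope x x' y (W.negY x' y')) by
    set l := W.slope x x' y (W.negY x' y')
    have hb : v (-(W.a₂ + x + x')) ≤ 1 := by
      rw [Valuation.map_neg]; exact v.map_add_le (v.map_add_le hW.a₂ hx) hxv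
    rw [show W.addX x x' l = l ^ 2 + W.a₁ * l + -(W.a₂ + x + x') by rw [addX]; ring,
      val_quadratic_eq_sq v hW.a₁ hb hl]
    exact one_lt_pow₀ hl two_ne_zero
  by_cases hxx : x = x'
  · subst hxx
    have hy2 : y ≠ W.negY x (W.negY x y') := by rw [negY_negY]; exact fun e => heq ⟨rfl, e⟩
    have hyy : y' = W.negY x y := by
      rcases Y_eq_of_X_eq h'.1 h.1 rfl with e | e
      · exact absurd e.symm (fun e => heq ⟨rfl, e⟩)
      · exact e
    rw [slope_of_Y_ne rfl hy2, ← hyy]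
    have hF : y - y' = 2 * y + W.a₁ * x + W.a₃ := by rw [hyy, negY]; ring
    rcases hs with hs | hs
    · rw [hF, hs] at hy'; exact absurd hy' (lt_irrefl _)
    rw [map_div₀, hs]
    exact (one_lt_div₀ ((v.pos_iff).mpr (sub_ne_zero.mpr fun e => heq ⟨rfl, e⟩))).mpr hy'
  rw [slope_of_X_ne hxx, map_div₀, one_lt_div₀ ((v.pos_iff).mpr (sub_ne_zero.mpr hxx))]
  rcases hs with hs | hs
  · have : y - W.negY x' y' = (2 * y + W.a₁ * x + W.a₃) + (-(y - y') + -(W.a₁ * (x - x'))) := by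
      rw [negY]; ring
    rw [this, v.map_add_eq_of_lt_left, hs]
    · exact hx'
    · rw [hs]
      refine v.map_add_lt ?_ ?_ <;> rw [Valuation.map_neg]
      · exact hy'
      · exact val_mul_lt_of_le_one v hW.a₁ hx'
  · set num := x ^ 2 + x * x' + x' ^ 2 + W.a₂ * (x + x') + W.a₄ - W.a₁ * y with hnum
    have key : (y - W.negY x' y') * (y - y') = (x - x') * num := by
      have e := (W.equation_iff x y).mp h.1
      have e' := (W.equation_iff x' y').mp h'.1
      rw [hnum, negY]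
      linear_combination e - e'
    have hnum1 : v num = 1 := by
      have : num = (3 * x ^ 2 + 2 * W.a₂ * x + W.a₄ - W.a₁ * y) + -((x - x') * (x' + 2 * x + W.a₂)) := by
        rw [hnum]; ring
      rw [this, v.map_add_eq_of_lt_left, hs]
      rw [hs, Valuation.map_neg, mul_comm]
      exact val_mul_lt_of_le_one v (v.map_add_le (v.map_add_le hxv
        (val_mul_le_of_le_one v (val_ofNat_le_one v 2) hx)) hW.a₂) hx'
    have hv : v (y - W.negY x' y') * v (y - y') = v (x - x') := by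
      rw [← map_mul, key, map_mul, hnum1, mul_one]
    have hpos : 0 < v (y - W.negY x' y') := by
      refine (v.pos_iff).mpr fun e => hxx ?_
      rw [e, _root_.map_zero, zero_mul, eq_comm, map_eq_zero, sub_eq_zero] at hv
      exact hv
    calc v (x - x') = v (y - W.negY x' y') * v (y - y') := hv.symm
      _ < v (y - W.negY x' y') * 1 := mul_lt_mul_of_pos_left hy' hpos
      _ = v (y - W.negY x' y') := mul_one _

omit [DecidableEq L] in
/-- Integrality of `y` from integrality of `x`. -/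
lemma val_y_le_one {W : Affine L} (hW : IntCoeff v W) {x y : L} (h : W.Equation x y)
    (hx : v x ≤ 1) : v y ≤ 1 := by
  have e := (W.equation_iff x y).mp h
  have hb : v (-(x ^ 3 + W.a₂ * x ^ 2 + W.a₄ * x + W.a₆)) ≤ 1 := by
    rw [Valuation.map_neg]
    refine v.map_add_le (v.map_add_le (v.map_add_le ?_ ?_) (val_mul_le_of_le_one v hW.a₄ hx)) hW.a₆
    · rw [map_pow]; exact pow_le_one' hx 3
    · exact val_mul_le_of_le_one v hW.a₂ (by rw [map_pow]; exact pow_le_one' hx 2)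
  have ha : v (W.a₁ * x + W.a₃) ≤ 1 := v.map_add_le (val_mul_le_of_le_one v hW.a₁ hx) hW.a₃
  have := sq_le_of_quadratic v ha hb le_rfl (l := y)
    (by rw [show y ^ 2 + (W.a₁ * x + W.a₃) * y + -(x ^ 3 + W.a₂ * x ^ 2 + W.a₄ * x + W.a₆) = 0 by
      linear_combination e]; simp)
  exact (pow_le_one_iff_of_nonneg zero_le two_ne_zero).mp this

omit [DecidableEq L] in
/-- With unit discriminant every integral point has nonsingular reduction. -/
lemma smoothRed_of_val_Δ {W : Affine L} (hW : IntCoeff v W) (hΔ : v W.Δ = 1) {x y : L}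
    (h : W.Equation x y) (hx : v x ≤ 1) : SmoothRed v W x y := by
  have hy := val_y_le_one hW h hx
  have h2 := val_ofNat_le_one v 2
  have h3 := val_ofNat_le_one v 3
  have hFy : v (2 * y + W.a₁ * x + W.a₃) ≤ 1 :=
    v.map_add_le (v.map_add_le (val_mul_le_of_le_one v h2 hy) (val_mul_le_of_le_one v hW.a₁ hx)) hW.a₃
  have hFx : v (3 * x ^ 2 + 2 * W.a₂ * x + W.a₄ - W.a₁ * y) ≤ 1 :=
    v.map_sub_le (v.map_add_le (v.map_add_le
      (val_mul_le_of_le_one v h3 (by rw [map_pow]; exact pow_le_one' hx 2))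
      (val_mul_le_of_le_one v (val_mul_le_of_le_one v h2 hW.a₂) hx)) hW.a₄)
      (val_mul_le_of_le_one v hW.a₁ hy)
  by_contra hcon
  simp only [SmoothRed, not_or] at hcon
  have hFy' := lt_of_le_of_ne hFy hcon.1
  have hFx' := lt_of_le_of_ne hFx hcon.2
  let W' : WeierstrassCurve L := VariableChange.mk 1 x 0 y • W
  have hΔ' : W'.Δ = W.Δ := by simp [W', variableChange_Δ]
  have h6 : W'.a₆ = 0 := Affine.equation_zero.mp ((W.equation_iff_variableChange x y).mp h)
  have h3' : v W'.a₃ < 1 := by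
    have : W'.a₃ = 2 * y + W.a₁ * x + W.a₃ := by simp [W', variableChange_a₃]; ring
    rw [this]; exact hFy'
  have h4' : v W'.a₄ < 1 := by
    have : W'.a₄ = 3 * x ^ 2 + 2 * W.a₂ * x + W.a₄ - W.a₁ * y := by
      simp [W', variableChange_a₄]; ring
    rw [this]; exact hFx'
  have h1' : v W'.a₁ ≤ 1 := by
    have : W'.a₁ = W.a₁ := by simp [W', variableChange_a₁]
    rw [this]; exact hW.a₁
  have h2' : v W'.a₂ ≤ 1 := by
    have : W'.a₂ = W.a₂ + 3 * x := by simp [W', variableChange_a₂]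
    rw [this]; exact v.map_add_le hW.a₂ (val_mul_le_of_le_one v h3 hx)
  have e : W'.Δ = W'.a₃ *
      (-(W'.b₂ ^ 2 * (-(W'.a₁ * W'.a₄) + W'.a₂ * W'.a₃)) - 27 * W'.a₃ ^ 3
        - 8 * W'.a₁ * W'.b₄ ^ 2 + 9 * W'.b₂ * W'.b₄ * W'.a₃) +
      W'.a₄ * (W'.b₂ ^ 2 * W'.a₄ - 16 * W'.b₄ ^ 2) := by
    simp only [WeierstrassCurve.Δ, b₂, b₄, b₆, b₈, h6]
    ring
  have hb2 : v W'.b₂ ≤ 1 := by
    rw [b₂]; exact v.map_add_le (by rw [map_pow]; exact pow_le_one' h1' 2)
      (val_mul_le_of_le_one v (val_ofNat_le_one v 4) h2')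
  have hb4 : v W'.b₄ ≤ 1 := by
    rw [b₄]; exact v.map_add_le (val_mul_le_of_le_one v h2 h4'.le) (val_mul_le_of_le_one v h1' h3'.le)
  have mle : ∀ {a b : L}, v a ≤ 1 → v b ≤ 1 → v (a * b) ≤ 1 :=
    fun ha hb => val_mul_le_of_le_one v ha hb
  have ple : ∀ {a : L} (k : ℕ), v a ≤ 1 → v (a ^ k) ≤ 1 :=
    fun k ha => by rw [map_pow]; exact pow_le_one' ha k
  have : v W'.Δ < 1 := by
    rw [e]
    refine v.map_add_lt ?_ ?_ <;> rw [mul_comm]
    · refine val_mul_lt_of_le_one v (v.map_add_le (v.map_sub_le (v.map_sub_le ?_ ?_) ?_) ?_) h3'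
      · rw [Valuation.map_neg]
        exact mle (ple 2 hb2) (v.map_add_le (by rw [Valuation.map_neg]; exact mle h1' h4'.le)
          (mle h2' h3'.le))
      · exact mle (val_ofNat_le_one v 27) (ple 3 h3'.le)
      · exact mle (mle (val_ofNat_le_one v 8) h1') (ple 2 hb4)
      · exact mle (mle (mle (val_ofNat_le_one v 9) hb2) hb4) h3'.le
    · exact val_mul_lt_of_le_one v (v.map_sub_le (mle (ple 2 hb2) h4'.le)
        (mle (val_ofNat_le_one v 16) (ple 2 hb4))) h4'
  rw [hΔ', hΔ] at this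
  exact lt_irrefl _ this

omit [DecidableEq L] in
/-- Away from the node every integral point has nonsingular reduction. -/
lemma smoothRed_of_node {W : Affine L} {x₀ y₀ : L} (hN : NodeAt v W x₀ y₀) {x y : L}
    (h : W.Equation x y) (hx : v x ≤ 1) (hu : 1 ≤ v (x - x₀)) : SmoothRed v W x y := by
  have hy := val_y_le_one hN.toIntCoeff h hx
  have hu1 : v (x - x₀) = 1 := le_antisymm (v.map_sub_le hx hN.val_x₀) hu
  have h2 := val_ofNat_le_one v 2
  have h3 := val_ofNat_le_one v 3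
  have hFy : v (2 * y + W.a₁ * x + W.a₃) ≤ 1 :=
    v.map_add_le (v.map_add_le (val_mul_le_of_le_one v h2 hy)
      (val_mul_le_of_le_one v hN.a₁ hx)) hN.a₃
  have hFx : v (3 * x ^ 2 + 2 * W.a₂ * x + W.a₄ - W.a₁ * y) ≤ 1 :=
    v.map_sub_le (v.map_add_le (v.map_add_le
      (val_mul_le_of_le_one v h3 (by rw [map_pow]; exact pow_le_one' hx 2))
      (val_mul_le_of_le_one v (val_mul_le_of_le_one v h2 hN.a₂) hx)) hN.a₄)
      (val_mul_le_of_le_one v hN.a₁ hy)
  by_contra hcon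
  simp only [SmoothRed, not_or] at hcon
  have hFy' := lt_of_le_of_ne hFy hcon.1
  have hFx' := lt_of_le_of_ne hFx hcon.2
  set a₄' := 3 * x₀ ^ 2 + 2 * W.a₂ * x₀ + W.a₄ - W.a₁ * y₀
  set u := x - x₀
  have e0 := (W.equation_iff x₀ y₀).mp hN.equation
  have e := (W.equation_iff x y).mp h
  have e0' := hN.negY_eq
  have i1 : (4 * u + (W.b₂ + 12 * x₀)) * u ^ 2
      = (2 * y + W.a₁ * x + W.a₃) ^ 2 + -(4 * a₄' * u) := by
    simp only [u, a₄', b₂]
    linear_combination -4 * e + 4 * e0 - (2 * y₀ + W.a₁ * x₀ + W.a₃ + 2 * W.a₁ * (x - x₀)) * e0'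
  have i2 : (6 * u + (W.b₂ + 12 * x₀)) * u
      = (2 * (3 * x ^ 2 + 2 * W.a₂ * x + W.a₄ - W.a₁ * y) + W.a₁ * (2 * y + W.a₁ * x + W.a₃))
        + -(2 * a₄') := by
    simp only [u, a₄', b₂]
    linear_combination -W.a₁ * e0'
  have ha4 : v a₄' < 1 := hN.deriv_lt
  have j1 : v (4 * u + (W.b₂ + 12 * x₀)) < 1 := by
    have := congrArg v i1
    rw [map_mul, map_pow, hu1, one_pow, mul_one] at this
    rw [this]
    refine v.map_add_lt ?_ ?_
    · rw [map_pow]; exact pow_lt_one₀ zero_le hFy' two_ne_zero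
    · rw [Valuation.map_neg, mul_comm]
      exact val_mul_lt_of_le_one v hu1.le (val_mul_lt_of_le_one v (val_ofNat_le_one v 4) ha4)
  have j2 : v (6 * u + (W.b₂ + 12 * x₀)) < 1 := by
    have := congrArg v i2
    rw [map_mul, hu1, mul_one] at this
    rw [this]
    refine v.map_add_lt (v.map_add_lt (val_mul_lt_of_le_one v h2 hFx')
      (val_mul_lt_of_le_one v hN.a₁ hFy')) ?_
    rw [Valuation.map_neg]; exact val_mul_lt_of_le_one v h2 ha4
  have j3 : v (2 * u) < 1 := by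
    rw [show 2 * u = (6 * u + (W.b₂ + 12 * x₀)) - (4 * u + (W.b₂ + 12 * x₀)) by ring]
    exact v.map_sub_lt j2 j1
  have j4 : v (4 * u) < 1 := by
    rw [show (4 : L) * u = 2 * (2 * u) by ring]; exact val_mul_lt_of_le_one v h2 j3
  have : v (W.b₂ + 12 * x₀) < 1 := by
    rw [show W.b₂ + 12 * x₀ = (4 * u + (W.b₂ + 12 * x₀)) - 4 * u by ring]
    exact v.map_sub_lt j1 j4
  rw [hN.b₂_unit] at this
  exact lt_irrefl _ this

/-- An automorphism that is trivial on the residue field, preserves the valuation and fixes the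
curve moves every point by a point that does not reduce to the node. -/
theorem sub_mem_smoothPoints {W : Affine L} {x₀ y₀ : L} (hN : NodeAt v W x₀ y₀) (σ : L ≃+* L)
    (hσv : ∀ z, v (σ z) = v z) (hσr : ∀ z, v z ≤ 1 → v (σ z - z) < 1) (hσx₀ : σ x₀ = x₀)
    (hσy₀ : σ y₀ = y₀) {x y : L} (h : W.Nonsingular x y) (h' : W.Nonsingular (σ x) (σ y)) :
    Point.some x y h - Point.some (σ x) (σ y) h' ∈ smoothPoints v W x₀ y₀ hN := by
  set u := x - x₀ with hu
  set w := y - y₀ with hw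
  have hu' : σ x - x₀ = σ u := by rw [hu, map_sub, hσx₀]
  have hw' : σ y - y₀ = σ w := by rw [hw, map_sub, hσy₀]
  set a₄' := 3 * x₀ ^ 2 + 2 * W.a₂ * x₀ + W.a₄ - W.a₁ * y₀ with ha₄'
  have e0 := (W.equation_iff x₀ y₀).mp hN.equation
  have e0' := hN.negY_eq
  have e : w ^ 2 + W.a₁ * u * w = u ^ 3 + (W.a₂ + 3 * x₀) * u ^ 2 + a₄' * u := by
    have e := (W.equation_iff x y).mp h.1
    simp only [hu, hw, ha₄']
    linear_combination e - e0 - (y - y₀) * e0'
  by_cases h1 : 1 ≤ v u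
  · exact sub_mem (some_mem_smoothPoints_iff.mpr h1)
      (some_mem_smoothPoints_iff.mpr (by rw [hu', hσv]; exact h1))
  rw [not_le] at h1
  by_cases hu0 : u = 0
  · have hxx : x = x₀ := sub_eq_zero.mp hu0
    have hw0 : w = 0 := by
      rw [hu0] at e
      exact pow_eq_zero_iff two_ne_zero |>.mp (by linear_combination e)
    have hyy : y = y₀ := sub_eq_zero.mp hw0
    have : Point.some (σ x) (σ y) h' = Point.some x y h := by
      simp [hxx, hyy, hσx₀, hσy₀]
    rw [this, sub_self]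
    exact zero_mem _
  have hupos : 0 < v u := v.pos_iff.mpr hu0
  by_cases h4 : v u ≤ v a₄'
  · have hT : W.Nonsingular x₀ y₀ :=
      (W.nonsingular_iff' x₀ y₀).mpr ⟨hN.equation, Or.inl fun hh => hN.deriv_ne (by
        rw [← neg_eq_zero] at hh; rw [← hh]; ring)⟩
    have key : ∀ {X Y : L} (hX : W.Nonsingular X Y), X - x₀ ≠ 0 → v (X - x₀) ≤ v a₄' →
        Point.some X Y hX + Point.some x₀ y₀ hT ∈ smoothPoints v W x₀ y₀ hN := by
      intro X Y hX hX0 hX4
      have hne : X ≠ x₀ := sub_ne_zero.mp hX0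
      have hxy : ¬(X = x₀ ∧ Y = W.negY x₀ y₀) := fun hh => hne hh.1
      rw [add_some hxy, some_mem_smoothPoints_iff]
      obtain ⟨-, hM, -⟩ := vieta_node hN hX.1 hN.equation hxy
      have hn : (Y - y₀) - W.slope X x₀ Y y₀ * (X - x₀) = 0 := by
        rw [slope_of_X_ne hne, div_mul_cancel₀ _ hX0, sub_self]
      rw [hn, sub_self] at hM
      have hM' : (W.addX X x₀ (W.slope X x₀ Y y₀) - x₀) * (X - x₀) = a₄' := by
        rw [ha₄']; linear_combination hM
      have := congrArg v hM'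
      rw [map_mul] at this
      rw [← this] at hX4
      exact le_of_mul_le_mul_right (by rwa [one_mul]) (v.pos_iff.mpr hX0)
    have k2 := key h' (by rw [hu']; simpa using hu0) (by rw [hu', hσv]; exact h4)
    have k1 := key h hu0 h4
    have := sub_mem k1 k2
    rwa [add_sub_add_right_eq_sub] at this
  rw [not_le] at h4
  set s := w / u with hs
  have hws : w = s * u := (div_mul_cancel₀ _ hu0).symm
  have es : s ^ 2 + W.a₁ * s = u + (W.a₂ + 3 * x₀) + a₄' / u := by
    rw [hs]; field_simp; linear_combination e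
  have ha4u : v (a₄' / u) < 1 := by
    rw [map_div₀, div_lt_one₀ hupos]; exact h4
  have hs1 : v s ≤ 1 := by
    have hb : v (-(u + (W.a₂ + 3 * x₀) + a₄' / u)) ≤ 1 := by
      rw [Valuation.map_neg]
      exact v.map_add_le (v.map_add_le h1.le (v.map_add_le hN.a₂
        (val_mul_le_of_le_one v (val_ofNat_le_one v 3) hN.val_x₀))) ha4u.le
    exact (pow_le_one_iff_of_nonneg zero_le two_ne_zero).mp
      (sq_le_of_quadratic v hN.a₁ hb le_rfl (by rw [es, add_neg_cancel]; simp))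
  have hs2 : v (2 * s + W.a₁) = 1 := by
    have e2 : (2 * s + W.a₁) ^ 2 = (W.b₂ + 12 * x₀) + 4 * (u + a₄' / u) := by
      rw [b₂]; linear_combination 4 * es
    have := congrArg v e2
    rw [map_pow, v.map_add_eq_of_lt_left (x := W.b₂ + 12 * x₀), hN.b₂_unit] at this
    · exact (pow_eq_one_iff.mp this).resolve_right two_ne_zero
    · rw [hN.b₂_unit]
      exact val_mul_lt_of_le_one v (val_ofNat_le_one v 4) (v.map_add_lt h1 ha4u)
  have hsσ : v (σ s - s) < 1 := hσr s hs1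
  have hsum : v (s + σ s + W.a₁) = 1 := by
    rw [show s + σ s + W.a₁ = (2 * s + W.a₁) + (σ s - s) by ring,
      v.map_add_eq_of_lt_left (by rw [hs2]; exact hsσ), hs2]
  have hwσ : σ w = σ s * σ u := by rw [hws, map_mul]
  by_cases hxx : x = σ x
  · rcases Y_eq_of_X_eq h.1 h'.1 hxx with hy | hy
    · have : Point.some (σ x) (σ y) h' = Point.some x y h := by simp [← hxx, ← hy]
      rw [this, sub_self]
      exact zero_mem _
    · exfalso
      have huu : σ u = u := by rw [← hu', ← hxx]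
      have : (s + σ s + W.a₁) * u = 0 := by
        rw [negY] at hy
        have hy' : w + σ w + W.a₁ * σ u = 0 := by
          rw [← hu', ← hw', hw]; linear_combination hy - e0'
        rw [huu] at hy' hwσ
        linear_combination hy' - hws - hwσ
      rcases mul_eq_zero.mp this with hh | hh
      · rw [hh, _root_.map_zero] at hsum; exact zero_ne_one hsum
      · exact hu0 hh
  rw [sub_eq_add_neg, neg_some]
  have hxy : ¬(x = σ x ∧ y = W.negY (σ x) (W.negY (σ x) (σ y))) := fun hh => hxx hh.1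
  rw [add_some hxy, some_mem_smoothPoints_iff]
  obtain ⟨-, -, hP⟩ := vieta_node hN h.1 ((equation_neg ..).mpr h'.1) hxy
  set l := W.slope x (σ x) y (W.negY (σ x) (σ y)) with hl
  have hd : u - σ u ≠ 0 := by
    rw [← hu', hu, sub_sub_sub_cancel_right]; exact sub_ne_zero.mpr hxx
  have hn : ((y - y₀) - l * (x - x₀)) * (u - σ u) = -(u * σ u * (s + σ s + W.a₁)) := by
    have hl' : l * (u - σ u) = w + σ w + W.a₁ * σ u := by
      rw [hl, slope_of_X_ne hxx, ← hu', hu, sub_sub_sub_cancel_right,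
        div_mul_cancel₀ _ (sub_ne_zero.mpr hxx), negY, ← hw', hw]
      linear_combination e0'
    rw [← hu, ← hw]
    linear_combination (-u) * hl' + (-σ u) * hws + (-u) * hwσ
  set u₃ := W.addX x (σ x) l - x₀
  have hσu : σ u ≠ 0 := by simpa using hu0
  have hfin : u₃ * (u - σ u) ^ 2 = u * σ u * (s + σ s + W.a₁) ^ 2 := by
    have hP' : u * σ u * u₃ = ((y - y₀) - l * (x - x₀)) ^ 2 := by rw [← hP, hu']
    refine mul_left_cancel₀ (mul_ne_zero hu0 hσu) ?_
    linear_combination (u - σ u) ^ 2 * hP' +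
      (((y - y₀) - l * (x - x₀)) * (u - σ u) - u * σ u * (s + σ s + W.a₁)) * hn
  have := congrArg v hfin
  simp only [map_mul, map_pow, hσv, hsum, one_pow, mul_one] at this
  have hle : v (u - σ u) ≤ v u := v.map_sub_le le_rfl (hσv u).le
  by_contra hc
  rw [not_le] at hc
  have : v u * v u < v u * v u := by
    calc v u * v u = v u₃ * v (u - σ u) ^ 2 := this.symm
      _ < 1 * v (u - σ u) ^ 2 := mul_lt_mul_of_pos_right hc (pow_pos (v.pos_iff.mpr hd) 2)
      _ ≤ v u * v u := by rw [one_mul, sq]; exact mul_le_mul' hle hle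
  exact lt_irrefl _ this

end Fermat.Agent.FreyReducible
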