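import Mathlib
import Fermat.Prelude.Def_FLTPrelim_FreyPackage
import Fermat.Agent.MultRed.Frey
import Fermat.Agent.EllTorsion.Mul
import Fermat.Agent.FreyReducible.Places
import Fermat.Agent.Frobenius.Exists

/-!
# The Frey curve has no rational point of order `p`

On the `2`-adic valuations of the `x`-coordinates of the multiples of such a point the biquadratic
addition formulas become a tent map with period `2μ`, `μ = p ord₂(b) - 4`, and `p ∤ μ`.
-/

open Fermat.Agent.EllTorsion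

namespace Fermat.Agent.FreyReducible

/-- The tropical recursion has no orbit of period `p ∤ μ`. -/
lemma tent_false (p : ℕ) (μ : ℤ) (k : ℕ → ℤ) (hp : 5 ≤ p) (hμ : ¬(p : ℤ) ∣ μ)
    (hrange : ∀ n, 1 ≤ n → n < p → 1 ≤ k n ∧ k n < μ)
    (hmin : ∀ n, 1 ≤ n → n < p → k 1 ≤ k n)
    (hsymm : k (p - 1) = k 1)
    (hdbl : ∃ N D, k 2 = 2 * N - D ∧ D = 2 * k 1 ∧
      (2 * k 1 < μ → N = 2 * k 1) ∧ (μ < 2 * k 1 → N = μ) ∧ (2 * k 1 = μ → μ ≤ N))
    (hrec : ∀ n, 2 ≤ n → n + 1 < p → ∃ N D, k (n + 1) + k (n - 1) = 2 * N - 2 * D ∧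
      (k n + k 1 < μ → N = k n + k 1) ∧ (μ < k n + k 1 → N = μ) ∧ (k n + k 1 = μ → μ ≤ N) ∧
      (k 1 < k n → D = k 1) ∧ (k n = k 1 → k 1 ≤ D)) :
    False := by
  set c := k 1 with hc
  obtain ⟨hc1, hcμ⟩ := hrange 1 le_rfl (by omega)
  have key : ∀ n : ℕ, 1 ≤ n → n < p →
      ((n : ℤ) * c < μ ∧ k n = n * c) ∨
        (μ < (n : ℤ) * c ∧ (n : ℤ) * c < 2 * μ ∧ k n = 2 * μ - n * c) := by
    intro n
    induction n using Nat.strong_induction_on with
    | _ n ih =>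
      intro hn1 hnp
      rcases Nat.lt_or_ge n 3 with hn | hn
      · interval_cases n
        · left; constructor <;> simp [hcμ, hc]
        · obtain ⟨N, D, h1, h2, h3, h4, h5⟩ := hdbl
          obtain ⟨r1, r2⟩ := hrange 2 (by omega) hnp
          push_cast
          rcases lt_trichotomy (2 * c) μ with h | h | h
          · left; have := h3 h; omega
          · have := h5 h; omega
          · right; have := h4 h; omega
      · obtain ⟨j, rfl⟩ : ∃ j, n = j + 1 := ⟨n - 1, by omega⟩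
        obtain ⟨i, rfl⟩ : ∃ i, j = i + 1 := ⟨j - 1, by omega⟩
        have h0 := ih i (by omega) (by omega) (by omega)
        have h1 := ih (i + 1) (by omega) (by omega) (by omega)
        obtain ⟨N, D, e, hN1, hN2, hN3, hD1, hD2⟩ := hrec (i + 1) (by omega) (by omega)
        rw [Nat.add_sub_cancel] at e
        obtain ⟨r1, r2⟩ := hrange (i + 1 + 1) (by omega) (by omega)
        have m1 := hmin (i + 1) (by omega) (by omega)
        have m2 := hmin (i + 1 + 1) (by omega) (by omega)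
        have m0 := hmin i (by omega) (by omega)
        have hi : c ≤ (i : ℤ) * c := le_mul_of_one_le_left (by omega) (by exact_mod_cast (show 1 ≤ i by omega))
        push_cast at h0 h1 ⊢
        simp only [add_mul, one_mul] at h0 h1 ⊢
        rcases lt_trichotomy (k (i + 1) + c) μ with a | a | a <;>
        rcases m1.eq_or_lt with b | b <;>
        rcases h1 with ⟨u1, u2⟩ | ⟨u1, u2, u3⟩ <;>
        rcases h0 with ⟨t1, t2⟩ | ⟨t1, t2, t3⟩ <;>
        first
          | (have := hN1 a; have := hD1 b; omega)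
          | (have := hN2 a; have := hD1 b; omega)
          | (have := hN3 a; have := hD1 b; omega)
          | (have := hN1 a; have := hD2 b.symm; omega)
          | (have := hN2 a; have := hD2 b.symm; omega)
          | (have := hN3 a; have := hD2 b.symm; omega)
  have hlast := key (p - 1) (by omega) (by omega)
  rw [hsymm, Nat.cast_sub (by omega), Nat.cast_one, sub_mul, one_mul] at hlast
  rcases hlast with ⟨-, h⟩ | ⟨-, -, h⟩
  · have : 5 * c ≤ (p : ℤ) * c := mul_le_mul_of_nonneg_right (by exact_mod_cast hp) (by omega)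
    omega
  · have h2 : (p : ℤ) ∣ 2 * μ := ⟨c, by omega⟩
    have hpp : IsCoprime (p : ℤ) 2 ∨ 2 ∣ (p : ℤ) := by
      rcases Int.emod_two_eq_zero_or_one p with h | h
      · exact Or.inr (Int.dvd_of_emod_eq_zero h)
      · exact Or.inl ⟨1, -((p : ℤ) / 2), by omega⟩
    rcases hpp with h' | ⟨e, he⟩
    · exact hμ (h'.dvd_of_dvd_mul_left h2)
    · -- for even `p` the halfway index is excluded
      have h3 := key (p / 2) (by omega) (by omega)
      have h4 : ((p / 2 : ℕ) : ℤ) * c = μ := by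
        have : 2 * ((p / 2 : ℕ) : ℤ) = p := by omega
        have : 2 * (((p / 2 : ℕ) : ℤ) * c) = 2 * μ := by rw [← mul_assoc, this]; omega
        omega
      omega

section

variable (P : FreyPackage)

local notation "v₂" => padicValRat 2

local instance fact_two_prime_fr : Fact (Nat.Prime 2) := ⟨Nat.prime_two⟩

lemma v₂_intCast_odd {n : ℤ} (h : ¬(2 : ℤ) ∣ n) : v₂ (n : ℚ) = 0 := by
  rw [padicValRat.of_int, padicValInt.eq_zero_of_not_dvd h]; rfl

lemma v₂_add_eq {a b : ℚ} (ha : a ≠ 0) (h : b = 0 ∨ v₂ a < v₂ b) :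
    a + b ≠ 0 ∧ v₂ (a + b) = v₂ a := by
  rcases eq_or_ne b 0 with rfl | hb
  · simp [ha]
  have h := h.resolve_left hb
  have h0 : a + b ≠ 0 := fun e => by
    rw [eq_neg_of_add_eq_zero_right e, padicValRat.neg] at h
    exact lt_irrefl _ h
  exact ⟨h0, padicValRat.add_eq_of_lt h0 ha hb h⟩

lemma exists_frey_two :
    ∃ k m : ℤ, P.freyCurve.a₁ = 1 ∧ P.freyCurve.a₂ = k ∧ P.freyCurve.a₃ = 0 ∧
      P.freyCurve.a₄ = m ∧ P.freyCurve.a₆ = 0 ∧ m ≠ 0 ∧ 1 ≤ v₂ (m : ℚ) ∧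
      ¬(P.p : ℤ) ∣ v₂ (m : ℚ) := by
  obtain ⟨k, hk⟩ := MultRed.four_dvd_frey_a₂num P
  obtain ⟨m, hm⟩ := MultRed.sixteen_dvd_frey_a₄num P
  have hk' : ((P.b : ℚ) ^ P.p - 1 - (P.a : ℚ) ^ P.p) = 4 * k := by exact_mod_cast hk
  have hm' : (-((P.a : ℚ) ^ P.p) * (P.b : ℚ) ^ P.p) = 16 * m := by exact_mod_cast hm
  have ha : (P.a : ℚ) ≠ 0 := by exact_mod_cast P.ha0
  have hb : (P.b : ℚ) ≠ 0 := by exact_mod_cast P.hb0
  have hm0 : (m : ℚ) ≠ 0 := fun h => by simp [h, ha, hb] at hm'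
  have ha2 : ¬(2 : ℤ) ∣ P.a := fun h => by
    have hu := dvd_gcd h (MultRed.two_dvd_frey_b P)
    rw [P.hgcdab] at hu
    omega
  have hv := congrArg (padicValRat 2) hm'
  rw [neg_mul, padicValRat.neg, padicValRat.mul (pow_ne_zero _ ha) (pow_ne_zero _ hb),
    padicValRat.pow, padicValRat.pow, padicValRat.mul (by norm_num) hm0, v₂_intCast_odd ha2,
    show (16 : ℚ) = ((2 : ℕ) : ℚ) ^ 4 by norm_num, padicValRat.pow, padicValRat.self one_lt_two]
    at hv
  have hvb : 1 ≤ v₂ (P.b : ℚ) := by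
    rw [padicValRat.of_int]
    have := ((padicValInt_dvd_iff (p := 2) 1 P.b).mp (by simpa using MultRed.two_dvd_frey_b P)).resolve_left P.hb0
    exact_mod_cast this
  refine ⟨k, m, rfl, ?_, rfl, ?_, rfl, by exact_mod_cast hm0, ?_, ?_⟩
  · simp only [FreyPackage.freyCurve]; rw [hk']; ring
  · simp only [FreyPackage.freyCurve]; rw [hm']; ring
  · have := P.hp5
    have : 5 * 1 ≤ (P.p : ℤ) * v₂ (P.b : ℚ) := mul_le_mul (by omega) hvb (by norm_num) (by omega)
    omega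
  · intro hdvd
    have h4 : (P.p : ℤ) ∣ 4 := by
      have : (4 : ℤ) = (P.p : ℤ) * v₂ (P.b : ℚ) - v₂ (m : ℚ) := by omega
      rw [this]; exact dvd_sub (dvd_mul_right _ _) hdvd
    have := Int.le_of_dvd (by norm_num) h4
    have := P.hp5
    omega

/-- A rational point of order dividing `p` has `2`-integral abscissa. -/
lemma v₂_x_nonneg {x y : ℚ} (h : P.freyCurve.toAffine.Nonsingular x y)
    (hP : P.p • WeierstrassCurve.Affine.Point.some x y h = 0) : 0 ≤ v₂ x := by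
  obtain ⟨A, hA⟩ := Frobenius.exists_liesOverPrime (AlgebraicClosure ℚ) Nat.prime_two
  have hroot := preΨ'_eval_eq_zero h P.hp_odd hP
  set f := P.freyCurveInt.preΨ' P.p
  have hroot' : (f.map (Int.castRingHom (AlgebraicClosure ℚ))).IsRoot (x : AlgebraicClosure ℚ) := by
    rw [← MultRed.freyCurveInt_map, WeierstrassCurve.map_preΨ'] at hroot
    have h1 : Int.castRingHom (AlgebraicClosure ℚ)
        = (Rat.castHom (AlgebraicClosure ℚ)).comp (Int.castRingHom ℚ) := RingHom.ext_int _ _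
    rw [h1, ← Polynomial.map_map, Polynomial.IsRoot.def]
    have := congrArg (Rat.castHom (AlgebraicClosure ℚ)) hroot
    rw [← Polynomial.eval_map_apply, map_zero] at this
    exact this
  have hlc : f.leadingCoeff = (P.p : ℤ) := by
    rw [WeierstrassCurve.leadingCoeff_preΨ' _ (by exact_mod_cast P.hp0),
      if_neg (Nat.not_even_iff_odd.mpr P.hp_odd)]
  have hx := valuation_root_le_one A (f := f) (by
    rw [hlc, Int.cast_natCast]
    exact valuation_natCast_eq_one Nat.prime_two hA fun h2 =>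
      (Nat.prime_dvd_prime_iff_eq Nat.prime_two P.pp).mp h2 |> fun e => absurd P.hp5 (by omega)) hroot'
  by_contra hneg
  rw [not_le, padicValRat_def] at hneg
  have hden : 2 ∣ x.den := by
    by_contra h2
    rw [padicValNat.eq_zero_of_not_dvd h2] at hneg
    omega
  have hnum : ¬2 ∣ x.num.natAbs := fun h2 =>
    absurd (Nat.eq_one_of_dvd_coprimes x.reduced h2 hden) (by norm_num)
  have hn1 := valuation_intCast_eq_one Nat.prime_two hA (L := AlgebraicClosure ℚ) (n := x.num)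
    fun h2 => hnum (Int.natCast_dvd.mp h2)
  have hd1 : A.valuation ((x.den : ℤ) : AlgebraicClosure ℚ) < 1 :=
    (valuation_intCast_lt_one_iff Nat.prime_two hA _).mpr (by exact_mod_cast hden)
  rw [Rat.cast_def, map_div₀, hn1] at hx
  rw [Int.cast_natCast] at hd1
  have hd0 : 0 < A.valuation (x.den : AlgebraicClosure ℚ) :=
    A.valuation.pos_iff.mpr (Nat.cast_ne_zero.mpr x.den_ne_zero)
  exact absurd hd1 (not_lt.mpr ((div_le_one₀ hd0).mp hx))

lemma one_le_v₂_sub {s a : ℚ} (hs : v₂ s = 0) (ha : v₂ a = 0) (hs0 : s ≠ 0) (ha0 : a ≠ 0)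
    (hne : s ≠ a) : 1 ≤ v₂ (s - a) := by
  have parity : ∀ x : ℚ, x ≠ 0 → v₂ x = 0 → ¬(2 : ℤ) ∣ x.num ∧ ¬(2 : ℤ) ∣ (x.den : ℤ) := by
    intro x hx hv
    have hco := x.reduced
    rw [padicValRat_def] at hv
    constructor <;> intro h
    · have h2 : ¬2 ∣ x.den := fun h' =>
        absurd (Nat.eq_one_of_dvd_coprimes hco (Int.natCast_dvd.mp h) h') (by norm_num)
      rw [padicValNat.eq_zero_of_not_dvd h2] at hv
      have := ((padicValInt_dvd_iff (p := 2) 1 x.num).mp (by simpa using h)).resolve_left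
        (Rat.num_ne_zero.mpr hx)
      omega
    · have h' : 2 ∣ x.den := by exact_mod_cast h
      have h2 : ¬(2 : ℤ) ∣ x.num := fun h'' =>
        absurd (Nat.eq_one_of_dvd_coprimes hco (Int.natCast_dvd.mp h'') h') (by norm_num)
      rw [padicValInt.eq_zero_of_not_dvd h2] at hv
      have := one_le_padicValNat_of_dvd (p := 2) x.den_ne_zero h'
      omega
  obtain ⟨s1, s2⟩ := parity s hs0 hs
  obtain ⟨a1, a2⟩ := parity a ha0 ha
  set N : ℤ := s.num * a.den - a.num * s.den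
  have e : s - a = (N : ℚ) / ((s.den * a.den : ℤ) : ℚ) := by
    conv_lhs => rw [← Rat.num_div_den s, ← Rat.num_div_den a]
    have : (s.den : ℚ) ≠ 0 := by exact_mod_cast s.den_ne_zero
    have : (a.den : ℚ) ≠ 0 := by exact_mod_cast a.den_ne_zero
    simp only [N]; push_cast; field_simp
  have hN : N ≠ 0 := fun h => hne (sub_eq_zero.mp (by rw [e, h]; simp))
  have hD : (s.den * a.den : ℤ) ≠ 0 := by
    have := s.den_ne_zero; have := a.den_ne_zero; positivity
  have h2N : (2 : ℤ) ∣ N := by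
    simp only [N, ← even_iff_two_dvd, Int.even_sub, Int.even_mul]
    simp only [even_iff_two_dvd]
    tauto
  rw [e, padicValRat.div (Int.cast_ne_zero.mpr hN) (Int.cast_ne_zero.mpr hD), padicValRat.of_int,
    v₂_intCast_odd (fun h => (Int.prime_two.dvd_or_dvd h).elim s2 a2)]
  have := ((padicValInt_dvd_iff (p := 2) 1 N).mp (by simpa using h2N)).resolve_left hN
  omega

variable {P}

/-- The shape of the Frey curve used below. -/
structure TwoAdicShape (W : WeierstrassCurve.Affine ℚ) (p : ℕ) (k m : ℤ) : Prop where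
  a₁ : W.a₁ = 1
  a₂ : W.a₂ = k
  a₃ : W.a₃ = 0
  a₄ : W.a₄ = m
  a₆ : W.a₆ = 0
  m_ne : (m : ℚ) ≠ 0
  one_le : 1 ≤ v₂ (m : ℚ)
  five_le : 5 ≤ p
  prime : p.Prime
  integral : ∀ (R : W.Point) (a : ℚ), HasX R a → p • R = 0 → 0 ≤ v₂ a

namespace TwoAdicShape

set_option linter.unusedSectionVars false

variable {W : WeierstrassCurve.Affine ℚ} {p : ℕ} {k m : ℤ} (S : TwoAdicShape W p k m)
include S

lemma prodForm_eq (a b : ℚ) : prodForm W a b = (a * b - m) ^ 2 := by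
  simp only [prodForm, WeierstrassCurve.b₄, WeierstrassCurve.b₆, WeierstrassCurve.b₈,
    S.a₁, S.a₂, S.a₃, S.a₄, S.a₆]
  ring

lemma dupNum_eq (a : ℚ) : dupNum W a 1 = (a ^ 2 + -(m : ℚ)) ^ 2 := by
  simp only [dupNum, WeierstrassCurve.b₄, WeierstrassCurve.b₆, WeierstrassCurve.b₈,
    S.a₁, S.a₂, S.a₃, S.a₄, S.a₆]
  ring

lemma dupDen_eq (a : ℚ) :
    dupDen W a 1 = ((1 + 4 * k : ℤ) : ℚ) * a ^ 2 + 4 * (a ^ 3 + m * a) := by
  simp only [dupDen, WeierstrassCurve.b₂, WeierstrassCurve.b₄, WeierstrassCurve.b₆,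
    S.a₁, S.a₂, S.a₃, S.a₄, S.a₆]
  push_cast
  ring

lemma nsmul_ne_zero {R : W.Point} (hR : R ≠ 0) (hRp : p • R = 0) {j : ℕ} (hj1 : 1 ≤ j)
    (hj2 : j < p) : j • R ≠ 0 := by
  intro hj
  have := addOrderOf_eq_prime (p := p) (hp := ⟨S.prime⟩) hRp hR
  have := Nat.le_of_dvd hj1 (this ▸ addOrderOf_dvd_of_nsmul_eq_zero hj)
  omega

lemma nsmul_torsion {R : W.Point} (hRp : p • R = 0) (j : ℕ) : p • (j • R) = 0 := by
  rw [nsmul_left_comm, hRp, nsmul_zero]

lemma dupDen_ne_zero {R : W.Point} {a : ℚ} (hR : HasX R a) (hRp : p • R = 0) :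
    dupDen W a 1 ≠ 0 := fun e => S.nsmul_ne_zero hR.ne_zero hRp (by omega)
      (by have := S.five_le; omega) ((two_nsmul_eq_zero_iff hR).mpr e)

lemma x_ne_zero {R : W.Point} {a : ℚ} (hR : HasX R a) (hRp : p • R = 0) : a ≠ 0 := fun ha =>
  S.dupDen_ne_zero hR hRp (by rw [S.dupDen_eq, ha]; ring)

lemma v₂_b₂ (a : ℚ) (ha : a ≠ 0) :
    v₂ (((1 + 4 * k : ℤ) : ℚ) * a ^ 2) = 2 * v₂ a := by
  rw [padicValRat.mul (Int.cast_ne_zero.mpr (by omega)) (pow_ne_zero _ ha),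
    v₂_intCast_odd (by omega), padicValRat.pow]
  push_cast
  ring

lemma v₂_rest {a : ℚ} (ha : a ≠ 0) (h : 4 * (a ^ 3 + (m : ℚ) * a) ≠ 0) :
    2 + min (3 * v₂ a) (v₂ (m : ℚ) + v₂ a) ≤ v₂ (4 * (a ^ 3 + (m : ℚ) * a)) := by
  have h' := right_ne_zero_of_mul h
  rw [padicValRat.mul (by norm_num) h', show (4 : ℚ) = ((2 : ℕ) : ℚ) ^ 2 by norm_num,
    padicValRat.pow, padicValRat.self one_lt_two]
  have := padicValRat.min_le_padicValRat_add (p := 2) h'
  rw [padicValRat.pow, padicValRat.mul S.m_ne ha] at this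
  push_cast at this ⊢
  omega

lemma v₂_dupDen {a : ℚ} (ha : a ≠ 0) (h1 : 0 ≤ v₂ a) (h2 : v₂ a < v₂ (m : ℚ) + 2) :
    v₂ (dupDen W a 1) = 2 * v₂ a := by
  rw [S.dupDen_eq, ← S.v₂_b₂ a ha]
  refine (v₂_add_eq (mul_ne_zero (Int.cast_ne_zero.mpr (by omega)) (pow_ne_zero _ ha)) ?_).2
  rcases eq_or_ne (4 * (a ^ 3 + (m : ℚ) * a)) 0 with h0 | h0
  · exact Or.inl h0
  refine Or.inr (lt_of_lt_of_le ?_ (S.v₂_rest ha h0))
  rw [S.v₂_b₂ a ha]
  omega

lemma le_v₂_dupDen {a : ℚ} (ha : a ≠ 0) (h1 : v₂ (m : ℚ) ≤ v₂ a) (h : dupDen W a 1 ≠ 0) :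
    2 * v₂ (m : ℚ) ≤ v₂ (dupDen W a 1) := by
  rw [S.dupDen_eq] at h ⊢
  have := S.v₂_b₂ a ha
  rcases eq_or_ne (4 * (a ^ 3 + (m : ℚ) * a)) 0 with h0 | h0
  · rw [h0, add_zero]; omega
  · have := S.v₂_rest ha h0
    have := padicValRat.min_le_padicValRat_add (p := 2) h
    have := S.one_le
    omega

/-- The doubling relation on valuations. -/
lemma exists_double {R : W.Point} {a : ℚ} (hR : HasX R a) (hRp : p • R = 0) :
    ∃ s, HasX (2 • R) s ∧
      v₂ s + v₂ (dupDen W a 1) = 2 * v₂ (a ^ 2 + -(m : ℚ)) ∧ a ^ 2 + -(m : ℚ) ≠ 0 := by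
  have hd := S.dupDen_ne_zero hR hRp
  obtain ⟨s, hs, hs'⟩ := exists_hasX_two_nsmul hR hd
  rw [S.dupNum_eq] at hs'
  have hs0 := S.x_ne_zero hs (S.nsmul_torsion hRp 2)
  refine ⟨s, hs, ?_, fun h => mul_ne_zero hs0 hd (by rw [hs', h]; ring)⟩
  rw [← padicValRat.mul hs0 hd, hs', padicValRat.pow]
  norm_num

lemma x_ne_of_nsmul {R : W.Point} (hR : R ≠ 0) (hRp : p • R = 0) {n : ℕ} (h2 : 2 ≤ n)
    (hn : n + 1 < p) {s a : ℚ} (hs : HasX (n • R) s) (ha : HasX R a) : s ≠ a := by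
  rintro rfl
  obtain ⟨b, hb, hRe⟩ := ha
  obtain ⟨c, hc, hce⟩ := hs
  rcases (WeierstrassCurve.Affine.Point.X_eq_iff (h₁ := hc) (h₂ := hb)).mp rfl with e | e
  · refine S.nsmul_ne_zero hR hRp (j := n - 1) (by omega) (by omega) ?_
    rw [← hce, ← hRe] at e
    apply add_right_cancel (b := R)
    rw [zero_add, ← succ_nsmul, Nat.sub_add_cancel (by omega), e]
  · refine S.nsmul_ne_zero hR hRp (j := n + 1) (by omega) hn ?_
    rw [← hce, ← hRe] at e
    rw [succ_nsmul, e, neg_add_cancel]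

/-- The biquadratic relation on valuations. -/
lemma exists_add_sub {R : W.Point} {a : ℚ} (hR : HasX R a) (hRp : p • R = 0) {n : ℕ} (h2 : 2 ≤ n)
    (hn : n + 1 < p) {b : ℚ} (hb : HasX (n • R) b) :
    ∃ s d, HasX ((n + 1) • R) s ∧ HasX ((n - 1) • R) d ∧
      v₂ s + v₂ d + 2 * v₂ (b - a) = 2 * v₂ (b * a + -(m : ℚ)) ∧ b - a ≠ 0 ∧
      b * a + -(m : ℚ) ≠ 0 := by
  have hne := S.x_ne_of_nsmul hR.ne_zero hRp h2 hn hb hR
  obtain ⟨s, d, hs, hd, -, hsd⟩ := exists_hasX_add_sub hb hR hne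
  rw [← succ_nsmul] at hs
  have hd' : HasX ((n - 1) • R) d := by
    convert hd using 1
    rw [eq_sub_iff_add_eq, ← succ_nsmul, Nat.sub_add_cancel (by omega)]
  have hs0 := S.x_ne_zero hs (S.nsmul_torsion hRp _)
  have hd0 := S.x_ne_zero hd' (S.nsmul_torsion hRp _)
  have hsub : b - a ≠ 0 := sub_ne_zero.mpr hne
  rw [S.prodForm_eq, sub_eq_add_neg (b * a)] at hsd
  have hlhs : s * d * (b - a) ^ 2 ≠ 0 := mul_ne_zero (mul_ne_zero hs0 hd0) (pow_ne_zero _ hsub)
  refine ⟨s, d, hs, hd', ?_, hsub, fun h => hlhs (by rw [hsd, h]; ring)⟩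
  have e := congrArg (padicValRat 2) hsd
  rw [padicValRat.mul (mul_ne_zero hs0 hd0) (pow_ne_zero _ hsub), padicValRat.mul hs0 hd0,
    padicValRat.pow, padicValRat.pow] at e
  push_cast at e
  exact e

lemma no_unit {R : W.Point} {a : ℚ} (hR : HasX R a) (hRp : p • R = 0) : v₂ a ≠ 0 := by
  intro hva
  have := S.five_le
  have := S.one_le
  have ha := S.x_ne_zero hR hRp
  obtain ⟨s, hs, e, -⟩ := S.exists_double hR hRp
  rw [S.v₂_dupDen ha (by omega) (by omega), hva,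
    (v₂_add_eq (a := a ^ 2) (b := -(m : ℚ)) (pow_ne_zero _ ha)
      (Or.inr (by rw [padicValRat.neg, padicValRat.pow, hva]; omega))).2,
    padicValRat.pow, hva] at e
  have hvs : v₂ s = 0 := by omega
  have hs0 := S.x_ne_zero hs (S.nsmul_torsion hRp 2)
  obtain ⟨u, d, hu, hd, e', hne, -⟩ := S.exists_add_sub hR hRp le_rfl (by omega) hs
  have hda : d = a := HasX.unique hd (by simpa using hR)
  rw [(v₂_add_eq (a := s * a) (b := -(m : ℚ)) (mul_ne_zero hs0 ha)
      (Or.inr (by rw [padicValRat.neg, padicValRat.mul hs0 ha, hva, hvs]; omega))).2,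
    padicValRat.mul hs0 ha, hva, hvs, hda, hva] at e'
  have := S.integral _ u hu (S.nsmul_torsion hRp _)
  have := one_le_v₂_sub hvs hva hs0 ha (sub_ne_zero.mp hne)
  omega

lemma range {R : W.Point} {a : ℚ} (hR : HasX R a) (hRp : p • R = 0) :
    1 ≤ v₂ a ∧ v₂ a < v₂ (m : ℚ) := by
  have := S.integral R a hR hRp
  have := S.no_unit hR hRp
  refine ⟨by omega, ?_⟩
  by_contra hge
  have ha := S.x_ne_zero hR hRp
  obtain ⟨s, hs, e, -⟩ := S.exists_double hR hRp
  rw [add_comm (a ^ 2), (v₂_add_eq (a := -(m : ℚ)) (b := a ^ 2) (neg_ne_zero.mpr S.m_ne)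
    (Or.inr (by rw [padicValRat.neg, padicValRat.pow]; push_cast; omega))).2, padicValRat.neg] at e
  have := S.le_v₂_dupDen ha (by omega) (S.dupDen_ne_zero hR hRp)
  have := S.integral _ s hs (S.nsmul_torsion hRp 2)
  have := S.no_unit hs (S.nsmul_torsion hRp 2)
  omega

lemma false_of_torsion (hndvd : ¬(p : ℤ) ∣ v₂ (m : ℚ)) (R₀ : W.Point) (h0 : R₀ ≠ 0)
    (hp0 : p • R₀ = 0) : False := by
  classical
  have := S.five_le
  have hex : ∀ j, 1 ≤ j → j < p → ∃ t, HasX (j • R₀) t := fun j h1 h2 =>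
    exists_hasX (S.nsmul_ne_zero h0 hp0 h1 h2)
  let X₀ : ℕ → ℚ := fun j => if h : ∃ t, HasX (j • R₀) t then h.choose else 0
  have hX₀ : ∀ j, 1 ≤ j → j < p → HasX (j • R₀) (X₀ j) := fun j h1 h2 => by
    simp only [X₀, dif_pos (hex j h1 h2)]
    exact (hex j h1 h2).choose_spec
  obtain ⟨j₀, hj₀, hminj⟩ := Finset.exists_min_image (Finset.Ico 1 p) (fun j => v₂ (X₀ j))
    ⟨1, Finset.mem_Ico.mpr ⟨le_rfl, by omega⟩⟩
  rw [Finset.mem_Ico] at hj₀
  set R := j₀ • R₀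
  have hR0 : R ≠ 0 := S.nsmul_ne_zero h0 hp0 hj₀.1 hj₀.2
  have hRp : p • R = 0 := S.nsmul_torsion hp0 j₀
  have hexR : ∀ n, 1 ≤ n → n < p → ∃ t, HasX (n • R) t := fun n h1 h2 =>
    exists_hasX (S.nsmul_ne_zero hR0 hRp h1 h2)
  let X : ℕ → ℚ := fun n => if h : ∃ t, HasX (n • R) t then h.choose else 0
  have hX : ∀ n, 1 ≤ n → n < p → HasX (n • R) (X n) := fun n h1 h2 => by
    simp only [X, dif_pos (hexR n h1 h2)]
    exact (hexR n h1 h2).choose_spec
  have hR : HasX R (X 1) := by simpa using hX 1 le_rfl (by omega)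
  have hrg := fun n h1 h2 => S.range (hX n h1 h2) (S.nsmul_torsion hRp n)
  refine tent_false p (v₂ (m : ℚ)) (fun n => v₂ (X n)) S.five_le hndvd hrg ?_ ?_ ?_ ?_
  · intro n h1 h2
    -- `n • R` is a multiple of `R₀`, so has valuation at least the minimum
    have hmod : n • R = ((n * j₀) % p) • R₀ := by
      rw [← mul_nsmul']
      conv_lhs => rw [← Nat.mod_add_div (n * j₀) p, add_nsmul, mul_nsmul, hp0, nsmul_zero, add_zero]
    have hpos : 1 ≤ (n * j₀) % p := by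
      rw [Nat.one_le_iff_ne_zero, Ne, ← Nat.dvd_iff_mod_eq_zero, S.prime.dvd_mul]
      exact not_or.mpr ⟨Nat.not_dvd_of_pos_of_lt h1 h2, Nat.not_dvd_of_pos_of_lt hj₀.1 hj₀.2⟩
    have hlt : (n * j₀) % p < p := Nat.mod_lt _ (by omega)
    have e1 : X n = X₀ ((n * j₀) % p) :=
      HasX.unique (hX n h1 h2) (hmod ▸ hX₀ _ hpos hlt)
    have e2 : X 1 = X₀ j₀ := HasX.unique hR (hX₀ _ hj₀.1 hj₀.2)
    show v₂ (X 1) ≤ v₂ (X n)
    rw [e1, e2]
    exact hminj _ (Finset.mem_Ico.mpr ⟨hpos, hlt⟩)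
  · have e : (p - 1) • R = -R := by
      rw [eq_neg_iff_add_eq_zero, ← succ_nsmul, Nat.sub_add_cancel (by omega), hRp]
    exact congrArg v₂ (HasX.unique (e ▸ hX (p - 1) (by omega) (by omega)) hR.neg)
  · obtain ⟨s, hs, e, hn0⟩ := S.exists_double hR hRp
    obtain ⟨r1, r2⟩ := hrg 1 le_rfl (by omega)
    rw [← HasX.unique (hX 2 (by omega) (by omega)) hs,
      S.v₂_dupDen (S.x_ne_zero hR hRp) (by omega) (by omega)] at e
    refine ⟨v₂ ((X 1) ^ 2 + -(m : ℚ)), 2 * v₂ (X 1), by show v₂ (X 2) = _; omega, rfl, ?_, ?_, ?_⟩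
    all_goals
      intro h
      have hp2 : v₂ ((X 1) ^ 2) = 2 * v₂ (X 1) := by rw [padicValRat.pow]; norm_num
      have hm' : v₂ (-(m : ℚ)) = v₂ (m : ℚ) := padicValRat.neg _
    · rw [(v₂_add_eq (pow_ne_zero _ (S.x_ne_zero hR hRp)) (Or.inr (by rw [hp2, hm']; exact h))).2,
        hp2]
    · rw [add_comm, (v₂_add_eq (neg_ne_zero.mpr S.m_ne) (Or.inr (by rw [hp2, hm']; exact h))).2,
        hm']
    · have := padicValRat.min_le_padicValRat_add (p := 2) hn0
      omega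
  · intro n h2 hn
    obtain ⟨s, d, hs, hd, e, hne, hn0⟩ := S.exists_add_sub hR hRp h2 hn (hX n (by omega) (by omega))
    rw [← HasX.unique (hX (n + 1) (by omega) hn) hs,
      ← HasX.unique (hX (n - 1) (by omega) (by omega)) hd] at e
    have ha0 := S.x_ne_zero hR hRp
    have hb0 := S.x_ne_zero (hX n (by omega) (by omega)) (S.nsmul_torsion hRp n)
    have hmul : v₂ (X n * X 1) = v₂ (X n) + v₂ (X 1) := padicValRat.mul hb0 ha0
    have hm' : v₂ (-(m : ℚ)) = v₂ (m : ℚ) := padicValRat.neg _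
    refine ⟨v₂ (X n * X 1 + -(m : ℚ)), v₂ (X n - X 1), by show v₂ _ + v₂ _ = _; omega,
      fun h => ?_, fun h => ?_, fun h => ?_, fun h => ?_, fun h => ?_⟩
    · rw [(v₂_add_eq (mul_ne_zero hb0 ha0) (Or.inr (by rw [hmul, hm']; exact h))).2, hmul]
    · rw [add_comm, (v₂_add_eq (neg_ne_zero.mpr S.m_ne) (Or.inr (by rw [hmul, hm']; exact h))).2,
        hm']
    · have := padicValRat.min_le_padicValRat_add (p := 2) hn0
      omega
    · rw [sub_eq_add_neg, add_comm, (v₂_add_eq (neg_ne_zero.mpr ha0)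
        (Or.inr (by rw [padicValRat.neg]; exact h))).2, padicValRat.neg]
    · have hne' : X n + -X 1 ≠ 0 := by rwa [← sub_eq_add_neg]
      have := padicValRat.min_le_padicValRat_add (p := 2) hne'
      rw [padicValRat.neg] at this
      simp only [sub_eq_add_neg] at h ⊢
      omega

end TwoAdicShape

/-- **No rational point of order `p` on the Frey curve.** -/
theorem not_nsmul_eq_zero (P : FreyPackage) {x y : ℚ}
    (h : P.freyCurve.toAffine.Nonsingular x y) :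
    P.p • WeierstrassCurve.Affine.Point.some x y h ≠ 0 := by
  intro hP
  obtain ⟨k₂, m, ha1, ha2, ha3, ha4, ha6, hm0, hμ1, hμp⟩ := exists_frey_two P
  refine TwoAdicShape.false_of_torsion (p := P.p) (k := k₂)
    ⟨ha1, ha2, ha3, ha4, ha6, by exact_mod_cast hm0, hμ1, P.hp5, P.pp, ?_⟩ hμp _
    (WeierstrassCurve.Affine.Point.some_ne_zero h) hP
  rintro R a ⟨b, hb, rfl⟩ hRp
  exact v₂_x_nonneg P hb hRp

end

end Fermat.Agent.FreyReducible
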