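import Mathlib
import Fermat.Prelude.Def_FLTPrelim_FreyPackage
import Fermat.Prelude.Def_FLTPrelim_GaloisRep
import Fermat.Prelude.Def_FLTPrelim_Ramification
import Fermat.Agent.MultRed.Frey
import Fermat.Agent.FreyReducible.Chord
import Fermat.Agent.FreyReducible.Places

/-!
# The Frey curve at a place of `ℚ̄`: node coordinates and the action of inertia on points
-/

open WeierstrassCurve WeierstrassCurve.Affine WeierstrassCurve.Affine.Point
open scoped WeierstrassCurve.Affine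

noncomputable section

namespace Fermat.Agent.FreyReducible

local notation "Ω" => AlgebraicClosure ℚ
local notation "G_ℚ" => (AlgebraicClosure ℚ) ≃ₐ[ℚ] (AlgebraicClosure ℚ)

local instance isAlgebraicQbar_red : Algebra.IsAlgebraic ℚ (AlgebraicClosure ℚ) :=
  AlgebraicClosure.isAlgebraic ℚ

/-- The Frey curve over `ℚ̄`. -/
abbrev curveBar (P : FreyPackage) : Affine Ω := P.freyCurve⁄Ω

lemma curveBar_eq (P : FreyPackage) :
    curveBar P = P.freyCurveInt.map (Int.castRingHom Ω) := by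
  show P.freyCurve.map (algebraMap ℚ Ω) = _
  rw [← MultRed.freyCurveInt_map, WeierstrassCurve.map_map]
  congr 1

/-- The coefficients of the Frey curve over `ℚ̄`. -/
structure FreyCoeffs (P : FreyPackage) (k m : ℤ) : Prop where
  eq_k : P.b ^ P.p - 1 - P.a ^ P.p = 4 * k
  eq_m : -(P.a ^ P.p) * P.b ^ P.p = 16 * m
  a₁ : (curveBar P).a₁ = 1
  a₂ : (curveBar P).a₂ = (k : Ω)
  a₃ : (curveBar P).a₃ = 0
  a₄ : (curveBar P).a₄ = (m : Ω)
  a₆ : (curveBar P).a₆ = 0

lemma exists_freyCoeffs (P : FreyPackage) : ∃ k m, FreyCoeffs P k m := by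
  obtain ⟨k, hk⟩ := MultRed.four_dvd_frey_a₂num P
  obtain ⟨m, hm⟩ := MultRed.sixteen_dvd_frey_a₄num P
  refine ⟨k, m, hk, hm, ?_, ?_, ?_, ?_, ?_⟩ <;> rw [curveBar_eq] <;>
    simp only [WeierstrassCurve.map, FreyPackage.freyCurveInt, map_one, _root_.map_zero, eq_intCast]
  · rw [hk, Int.mul_ediv_cancel_left _ (by norm_num)]
  · rw [hm, Int.mul_ediv_cancel_left _ (by norm_num)]

lemma intCoeff_curveBar (P : FreyPackage) (A : ValuationSubring Ω) :
    IntCoeff A.valuation (curveBar P) := by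
  rw [curveBar_eq]
  constructor <;> exact valuation_intCast_le_one A _

/-- The discriminant is a unit at a good place. -/
lemma valuation_Δ_eq_one (P : FreyPackage) {q : ℕ} (hq : q.Prime) {A : ValuationSubring Ω}
    (hA : A.LiesOverPrime q) (hΔ : ¬(q : ℤ) ∣ P.freyCurveInt.Δ) :
    A.valuation (curveBar P).Δ = 1 := by
  rw [curveBar_eq, WeierstrassCurve.map_Δ, eq_intCast]
  exact valuation_intCast_eq_one hq hA hΔ

lemma dvd_abc_of_dvd_Δ (P : FreyPackage) {q : ℕ} (hq : q.Prime)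
    (hΔ : (q : ℤ) ∣ P.freyCurveInt.Δ) :
    (q : ℤ) ∣ P.a ∨ (q : ℤ) ∣ P.b ∨ (q : ℤ) ∣ P.c := by
  have hqp : Prime (q : ℤ) := Nat.prime_iff_prime_int.1 hq
  have h : (q : ℤ) ∣ P.a * P.b * P.c := by
    refine hqp.dvd_of_dvd_pow (n := 2 * P.p) ?_
    rw [← MultRed.freyCurveInt_Δ_mul]
    exact hΔ.mul_left _
  rcases hqp.dvd_or_dvd h with h | h
  · rcases hqp.dvd_or_dvd h with h | h
    · exact Or.inl h
    · exact Or.inr (Or.inl h)
  · exact Or.inr (Or.inr h)

lemma not_dvd_of_gcd_eq_one {q : ℕ} (hq : q.Prime) {x y : ℤ} (h : gcd x y = 1)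
    (hx : (q : ℤ) ∣ x) : ¬(q : ℤ) ∣ y := fun hy =>
  (Nat.prime_iff_prime_int.1 hq).not_isUnit (isUnit_of_dvd_one (h ▸ dvd_gcd hx hy))

lemma valuation_ratCast_le_one {q : ℕ} (hq : q.Prime) {A : ValuationSubring Ω}
    (hA : A.LiesOverPrime q) (n : ℤ) (d : ℕ) (hd : ¬q ∣ d) :
    A.valuation ((n : Ω) / (d : Ω)) ≤ 1 := by
  rw [map_div₀, valuation_natCast_eq_one hq hA hd, div_one]
  exact valuation_intCast_le_one A n

/-- At a bad prime there is a rational node which is a point of order two. -/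
lemma exists_nodeAt (P : FreyPackage) {q : ℕ} (hq : q.Prime) {A : ValuationSubring Ω}
    (hA : A.LiesOverPrime q) (hΔ : (q : ℤ) ∣ P.freyCurveInt.Δ) :
    ∃ x₀ y₀ : Ω, NodeAt A.valuation (curveBar P) x₀ y₀ ∧
      (∀ σ : G_ℚ, σ x₀ = x₀ ∧ σ y₀ = y₀) := by
  obtain ⟨k, m, hc⟩ := exists_freyCoeffs P
  have hqp : Prime (q : ℤ) := Nat.prime_iff_prime_int.1 hq
  have hpow : ∀ x : ℤ, (q : ℤ) ∣ x ^ P.p ↔ (q : ℤ) ∣ x := fun x =>
    ⟨hqp.dvd_of_dvd_pow, fun h => dvd_pow h P.hp0⟩
  have hint := intCoeff_curveBar P A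
  have hm0 : m ≠ 0 := fun h => by
    have := hc.eq_m
    rw [h, mul_zero, mul_eq_zero, neg_eq_zero, pow_eq_zero_iff P.hp0, pow_eq_zero_iff P.hp0] at this
    exact this.elim P.ha0 P.hb0
  have hb₂ : (curveBar P).b₂ = ((P.b ^ P.p - P.a ^ P.p : ℤ) : Ω) := by
    have : P.b ^ P.p - P.a ^ P.p = 1 + 4 * k := by have := hc.eq_k; omega
    rw [WeierstrassCurve.b₂, hc.a₁, hc.a₂, this]; push_cast; ring
  by_cases hab : (q : ℤ) ∣ P.a ∨ (q : ℤ) ∣ P.b
  · -- the node reduces from `(0, 0)`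
    refine ⟨0, 0, ⟨hint, ?_, ?_, ?_, ?_, ?_, ?_, ?_⟩, fun σ => ⟨_root_.map_zero σ, _root_.map_zero σ⟩⟩
    · rw [Affine.equation_zero]; exact hc.a₆
    · rw [hc.a₃]; ring
    · simp
    · simp
    · rw [show 3 * (0 : Ω) ^ 2 + 2 * (curveBar P).a₂ * 0 + (curveBar P).a₄ - (curveBar P).a₁ * 0
        = (m : Ω) by rw [hc.a₄]; ring, valuation_intCast_lt_one_iff hq hA]
      have h16 : (q : ℤ) ∣ 16 * m := by
        rw [← hc.eq_m]
        rcases hab with h | h
        · exact ((dvd_neg.mpr ((hpow _).mpr h))).mul_right _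
        · exact ((hpow _).mpr h).mul_left _
      rcases hqp.dvd_or_dvd h16 with h | h
      · -- here `q = 2`, and `32 ∣ b ^ p`
        have hq2 : q = 2 := by
          have : (q : ℤ) ∣ 2 := hqp.dvd_of_dvd_pow (n := 4) (by norm_num; exact h)
          exact (Nat.prime_dvd_prime_iff_eq hq Nat.prime_two).mp (by exact_mod_cast this)
        subst hq2
        have h32 : (32 : ℤ) ∣ 16 * m := by
          rw [← hc.eq_m]
          refine dvd_mul_of_dvd_right ?_ _
          rw [show (32 : ℤ) = 2 ^ 5 by norm_num]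
          exact (pow_dvd_pow_of_dvd (MultRed.two_dvd_frey_b P) 5).trans (pow_dvd_pow _ P.hp5)
        omega
      · exact h
    · rw [show 3 * (0 : Ω) ^ 2 + 2 * (curveBar P).a₂ * 0 + (curveBar P).a₄ - (curveBar P).a₁ * 0
        = (m : Ω) by rw [hc.a₄]; ring]
      exact_mod_cast hm0
    · rw [mul_zero, add_zero, hb₂]
      refine valuation_intCast_eq_one hq hA fun h => ?_
      rcases hab with ha | hb
      · exact not_dvd_of_gcd_eq_one hq P.hgcdab ha
          ((hpow _).mp (by simpa using dvd_add h ((hpow _).mpr ha)))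
      · refine not_dvd_of_gcd_eq_one hq (gcd_comm P.a P.b ▸ P.hgcdab) hb ((hpow _).mp ?_)
        simpa using dvd_sub ((hpow _).mpr hb) h
  · -- `q` is an odd divisor of `c`, the node reduces from `(a ^ p / 4, - a ^ p / 8)`
    push Not at hab
    have hq2 : q ≠ 2 := fun h => hab.2 (h ▸ MultRed.two_dvd_frey_b P)
    have hc' : (q : ℤ) ∣ P.c :=
      ((dvd_abc_of_dvd_Δ P hq hΔ).resolve_left hab.1).resolve_left hab.2
    have hnd : ∀ j : ℕ, ¬q ∣ 2 ^ j := fun j h =>
      hq2 ((Nat.prime_dvd_prime_iff_eq hq Nat.prime_two).mp (hq.dvd_of_dvd_pow h))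
    have hfix : ∀ (σ : G_ℚ) (n : ℤ) (d : ℕ), σ ((n : Ω) / (d : Ω)) = (n : Ω) / (d : Ω) :=
      fun σ n d => by rw [map_div₀, map_intCast, map_natCast]
    set X : ℤ := P.a ^ P.p with hX
    set Y : ℤ := P.b ^ P.p with hY
    have hk : ((Y : Ω) - 1 - (X : Ω)) = 4 * (k : Ω) := by
      simp only [hX, hY]; exact_mod_cast hc.eq_k
    have hm : -(X : Ω) * (Y : Ω) = 16 * (m : Ω) := by
      simp only [hX, hY]; exact_mod_cast hc.eq_m
    have hderiv : 3 * ((X : Ω) / 4) ^ 2 + 2 * (k : Ω) * ((X : Ω) / 4) + (m : Ω) - ((-X : ℤ) : Ω) / 8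
        = ((X * (X + Y) : ℤ) : Ω) / 16 := by
      push_cast
      linear_combination (-(X : Ω) / 8) * hk - (1 / 16 : Ω) * hm
    have hXY : X + Y = P.c ^ P.p := P.hFLT
    refine ⟨((X : ℤ) : Ω) / ((4 : ℕ) : Ω), ((-X : ℤ) : Ω) / ((8 : ℕ) : Ω),
      ⟨hint, ?_, ?_, ?_, ?_, ?_, ?_, ?_⟩, fun σ => ⟨hfix σ _ _, hfix σ _ _⟩⟩
    · rw [Affine.equation_iff, hc.a₁, hc.a₂, hc.a₃, hc.a₄, hc.a₆]
      push_cast
      linear_combination ((X : Ω) ^ 2 / 64) * hk + ((X : Ω) / 64) * hm
    · rw [hc.a₁, hc.a₃]; push_cast; ring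
    · exact valuation_ratCast_le_one hq hA _ _ (hnd 2)
    · exact valuation_ratCast_le_one hq hA _ _ (hnd 3)
    · rw [hc.a₁, hc.a₂, hc.a₄, one_mul, Nat.cast_ofNat, Nat.cast_ofNat, hderiv, map_div₀,
        show (16 : Ω) = ((2 ^ 4 : ℕ) : Ω) by norm_num, valuation_natCast_eq_one hq hA (hnd 4),
        div_one, valuation_intCast_lt_one_iff hq hA, hXY]
      exact ((hpow _).mpr hc').mul_left _
    · rw [hc.a₁, hc.a₂, hc.a₄, one_mul, Nat.cast_ofNat, Nat.cast_ofNat, hderiv, hXY]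
      refine div_ne_zero (Int.cast_ne_zero.mpr (mul_ne_zero ?_ ?_)) (by norm_num)
      · exact pow_ne_zero _ P.ha0
      · exact pow_ne_zero _ P.hc0
    · rw [hb₂, show ((Y - X : ℤ) : Ω) + 12 * (((X : ℤ) : Ω) / ((4 : ℕ) : Ω))
        = (((X + Y) + X : ℤ) : Ω) by push_cast; ring, hXY]
      refine valuation_intCast_eq_one hq hA fun h => hab.1 ((hpow _).mp ?_)
      simpa using dvd_sub h ((hpow _).mpr hc')

/-- The subgroup of points of `E(ℚ̄)` with non-integral coordinates at `A`. -/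
abbrev largePts (P : FreyPackage) (A : ValuationSubring Ω) : AddSubgroup (curveBar P).Point :=
  largePoints A.valuation (curveBar P) (intCoeff_curveBar P A)

lemma smul_some (P : FreyPackage) (σ : G_ℚ) {x y : Ω} (h : (curveBar P).Nonsingular x y) :
    ∃ h' : (curveBar P).Nonsingular (σ x) (σ y),
      σ • (Point.some x y h : (P.freyCurve⁄Ω).Point) = Point.some (σ x) (σ y) h' :=
  ⟨_, Point.map_some σ.toAlgHom h⟩

/-- **Inertia on points.** There is a subgroup containing the points with non-integral coordinates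
such that inertia moves every point by an element of it, and its elements by points with
non-integral coordinates. -/
theorem exists_subgroup_inertia (P : FreyPackage) {q : ℕ} (hq : q.Prime)
    {A : ValuationSubring Ω} (hA : A.LiesOverPrime q) :
    ∃ S : AddSubgroup (P.freyCurve⁄Ω).Point, largePts P A ≤ S ∧
      ∀ σ ∈ A.inertiaSubgroupIn ℚ, ∀ R : (P.freyCurve⁄Ω).Point,
        σ • R - R ∈ S ∧ (R ∈ S → σ • R - R ∈ largePts P A) := by
  have hint := intCoeff_curveBar P A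
  -- points with a nonsingular reduction are moved by non-integral points
  have hsmooth : ∀ σ ∈ A.inertiaSubgroupIn ℚ, ∀ (x y : Ω) (h : (curveBar P).Nonsingular x y),
      (1 < A.valuation x ∨ SmoothRed A.valuation (curveBar P) x y) →
      σ • (Point.some x y h : (P.freyCurve⁄Ω).Point) - Point.some x y h ∈ largePts P A := by
    intro σ hσ x y h hcase
    obtain ⟨hd, hr⟩ := (mem_inertiaSubgroupIn_iff A σ).mp hσ
    obtain ⟨h', he⟩ := smul_some P σ h
    rw [he]
    rcases le_or_gt (A.valuation x) 1 with hx | hx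
    · have hy := val_y_le_one hint h.1 hx
      have hs := hcase.resolve_left hx.not_gt
      have hres : ∀ z, A.valuation z ≤ 1 → A.valuation (z - σ z) < 1 := fun z hz => by
        rw [Valuation.map_sub_swap]
        exact A.mem_nonunits_iff.mp (hr z ((A.valuation_le_one_iff z).mp hz))
      rw [← neg_sub]
      exact neg_mem (sub_mem_largePoints hint h h' hx hy (hres x hx) (hres y hy) hs)
    · exact sub_mem (some_mem_largePoints_iff.mpr (by rw [valuation_apply hd]; exact hx))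
        (some_mem_largePoints_iff.mpr hx)
  by_cases hΔ : (q : ℤ) ∣ P.freyCurveInt.Δ
  · obtain ⟨x₀, y₀, hN, hfix⟩ := exists_nodeAt P hq hA hΔ
    refine ⟨smoothPoints A.valuation (curveBar P) x₀ y₀ hN, largePoints_le_smoothPoints hN,
      fun σ hσ R => ?_⟩
    rcases R with _ | ⟨x, y, h⟩
    · have : σ • (0 : (P.freyCurve⁄Ω).Point) - 0 = 0 := (sub_zero _).trans rfl
      exact ⟨this ▸ zero_mem _, fun _ => this ▸ zero_mem _⟩
    constructor
    · obtain ⟨hd, hr⟩ := (mem_inertiaSubgroupIn_iff A σ).mp hσ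
      obtain ⟨h', he⟩ := smul_some P σ h
      rw [he, ← neg_sub]
      refine neg_mem (sub_mem_smoothPoints hN σ.toRingEquiv (valuation_apply hd) ?_ (hfix σ).1
        (hfix σ).2 h h')
      exact fun z hz => A.mem_nonunits_iff.mp (hr z ((A.valuation_le_one_iff z).mp hz))
    · intro hR
      refine hsmooth σ hσ x y h ?_
      rcases le_or_gt (A.valuation x) 1 with hx | hx
      · exact Or.inr (smoothRed_of_node hN h.1 hx hR)
      · exact Or.inl hx
  · refine ⟨⊤, le_top, fun σ hσ R => ⟨AddSubgroup.mem_top _, fun _ => ?_⟩⟩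
    rcases R with _ | ⟨x, y, h⟩
    · show σ • (0 : (P.freyCurve⁄Ω).Point) - 0 ∈ largePts P A
      rw [show σ • (0 : (P.freyCurve⁄Ω).Point) - 0 = 0 from (sub_zero _).trans rfl]
      exact zero_mem _
    refine hsmooth σ hσ x y h ?_
    rcases le_or_gt (A.valuation x) 1 with hx | hx
    · exact Or.inr (smoothRed_of_val_Δ hint (valuation_Δ_eq_one P hq hA hΔ) h.1 hx)
    · exact Or.inl hx

end Fermat.Agent.FreyReducible
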