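import Mathlib
import Fermat.Prelude.Def_FLTPrelim_FreyPackage
import Fermat.Prelude.Def_FLTPrelim_GaloisRep
import Fermat.Agent.EllTorsion.Mul
import Fermat.Agent.MultRed.Frey
import Fermat.Agent.FreyReducible.Reduction
import Fermat.Agent.FreyReducible.RationalPoint

/-!
# The `p`-torsion of the Frey curve: size, division polynomial, fixed points
-/

open WeierstrassCurve WeierstrassCurve.Affine WeierstrassCurve.Affine.Point
open scoped WeierstrassCurve.Affine

noncomputable section

namespace Fermat.Agent.FreyReducible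

local notation "Ω" => AlgebraicClosure ℚ
local notation "G_ℚ" => (AlgebraicClosure ℚ) ≃ₐ[ℚ] (AlgebraicClosure ℚ)

local instance isAlgebraicQbar_tor : Algebra.IsAlgebraic ℚ (AlgebraicClosure ℚ) :=
  AlgebraicClosure.isAlgebraic ℚ

variable (P : FreyPackage)

/-- The `p`-torsion of the Frey curve over `ℚ̄`. -/
abbrev freyTors : Submodule ℤ (P.freyCurve⁄Ω).Point :=
  Submodule.torsionBy ℤ (P.freyCurve⁄Ω).Point P.p

/-- The `p`-th division polynomial of the integral model. -/
abbrev freyPsi : Polynomial ℤ := P.freyCurveInt.preΨ' P.p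

lemma freyPsi_leadingCoeff : (freyPsi P).leadingCoeff = (P.p : ℤ) := by
  rw [leadingCoeff_preΨ' _ (by exact_mod_cast P.hp0),
    if_neg (Nat.not_even_iff_odd.mpr P.hp_odd)]

lemma freyPsi_ne_zero : freyPsi P ≠ 0 :=
  preΨ'_ne_zero _ (by exact_mod_cast P.hp0)

lemma freyPsi_map_natDegree :
    ((freyPsi P).map (Int.castRingHom Ω)).natDegree = (P.p ^ 2 - 1) / 2 := by
  rw [Polynomial.natDegree_map_eq_of_injective (RingHom.injective_int _),
    natDegree_preΨ' _ (by exact_mod_cast P.hp0), if_neg (Nat.not_even_iff_odd.mpr P.hp_odd)]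

variable {P}

lemma nsmul_eq_zero_of_mem {R : (P.freyCurve⁄Ω).Point} (hR : R ∈ freyTors P) :
    P.p • R = 0 := by
  rw [Submodule.mem_torsionBy_iff] at hR
  rwa [← natCast_zsmul]

lemma mem_freyTors {R : (P.freyCurve⁄Ω).Point} (hR : P.p • R = 0) : R ∈ freyTors P := by
  rw [Submodule.mem_torsionBy_iff, natCast_zsmul]
  exact hR

lemma isRoot_iff {x y : Ω} (h : (curveBar P).Nonsingular x y) :
    ((freyPsi P).map (Int.castRingHom Ω)).IsRoot x ↔
      P.p • (Point.some x y h : (P.freyCurve⁄Ω).Point) = 0 := by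
  have := EllTorsion.preΨ'_eval_eq_zero_iff h P.hp_odd
  conv at this => lhs; rw [curveBar_eq, WeierstrassCurve.map_preΨ']
  exact this

/-- The abscissa of a point. -/
def xCoord : (P.freyCurve⁄Ω).Point → Ω
  | .zero => 0
  | .some x _ _ => x

lemma isRoot_xCoord {R : (P.freyCurve⁄Ω).Point} (hR : R ∈ freyTors P) (h0 : R ≠ 0) :
    ((freyPsi P).map (Int.castRingHom Ω)).IsRoot (xCoord R) := by
  rcases R with _ | ⟨x, y, h⟩
  · exact absurd rfl h0
  · exact (isRoot_iff h).mpr (nsmul_eq_zero_of_mem hR)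

lemma eq_or_eq_neg_of_xCoord {R R' : (P.freyCurve⁄Ω).Point} (h0 : R ≠ 0) (h0' : R' ≠ 0)
    (h : xCoord R = xCoord R') : R = R' ∨ R = -R' := by
  rcases R with _ | ⟨x, y, hR⟩
  · exact absurd rfl h0
  rcases R' with _ | ⟨x', y', hR'⟩
  · exact absurd rfl h0'
  exact Point.X_eq_iff.mp h

variable (P)

/-- There are at most `p ^ 2` torsion points. -/
lemma finite_and_card_le :
    Finite (freyTors P) ∧ Nat.card (freyTors P) ≤ P.p ^ 2 := by
  classical
  set roots := ((freyPsi P).map (Int.castRingHom Ω)).roots.toFinset with hroots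
  let fib : Ω → Finset (P.freyCurve⁄Ω).Point := fun x =>
    if h : ∃ R : (P.freyCurve⁄Ω).Point, R ≠ 0 ∧ xCoord R = x then {h.choose, -h.choose} else ∅
  set U : Finset (P.freyCurve⁄Ω).Point := insert 0 (roots.biUnion fib) with hU
  have hsub : ((freyTors P : Submodule ℤ _) : Set (P.freyCurve⁄Ω).Point) ⊆ ↑U := by
    intro R hR
    by_cases h0 : R = 0
    · rw [h0]; exact Finset.mem_insert_self _ _
    refine Finset.mem_insert_of_mem (Finset.mem_biUnion.mpr ⟨xCoord R, ?_, ?_⟩)
    · rw [hroots, Multiset.mem_toFinset, Polynomial.mem_roots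
        ((Polynomial.map_ne_zero_iff (RingHom.injective_int _)).mpr (freyPsi_ne_zero P))]
      exact isRoot_xCoord hR h0
    · have hex : ∃ R' : (P.freyCurve⁄Ω).Point, R' ≠ 0 ∧ xCoord R' = xCoord R := ⟨R, h0, rfl⟩
      simp only [fib, dif_pos hex, Finset.mem_insert, Finset.mem_singleton]
      exact eq_or_eq_neg_of_xCoord h0 hex.choose_spec.1 hex.choose_spec.2.symm
  refine ⟨(U.finite_toSet.subset hsub).to_subtype, ?_⟩
  have hfib : ∀ x, (fib x).card ≤ 2 := fun x => by
    simp only [fib]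
    split
    · exact Finset.card_le_two
    · simp
  calc Nat.card (freyTors P)
      ≤ Nat.card (U : Set (P.freyCurve⁄Ω).Point) := Nat.card_mono U.finite_toSet hsub
    _ = U.card := Nat.card_eq_finsetCard U
    _ ≤ (roots.biUnion fib).card + 1 := Finset.card_insert_le _ _
    _ ≤ roots.card * 2 + 1 := by
        gcongr
        exact Finset.card_biUnion_le_card_mul _ _ _ fun x _ => hfib x
    _ ≤ (P.p ^ 2 - 1) / 2 * 2 + 1 := by
        gcongr
        rw [← freyPsi_map_natDegree]
        exact (Multiset.toFinset_card_le _).trans (Polynomial.card_roots' _)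
    _ ≤ P.p ^ 2 := by
        have : 1 ≤ P.p ^ 2 := Nat.one_le_pow _ _ P.hppos
        omega

instance : Finite (freyTors P) := (finite_and_card_le P).1

/-- There is a nonzero torsion point. -/
lemma nontrivial_freyTors : Nontrivial (freyTors P) := by
  obtain ⟨x, hx⟩ := IsAlgClosed.exists_root ((freyPsi P).map (Int.castRingHom Ω)) (by
    have hp : 5 * 5 ≤ P.p * P.p := Nat.mul_le_mul P.hp5 P.hp5
    intro h
    have := Polynomial.natDegree_eq_zero_iff_degree_le_zero.mpr h.le
    rw [freyPsi_map_natDegree, sq] at this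
    omega)
  -- a point above `x`
  set W := curveBar P
  obtain ⟨y, hy⟩ := IsAlgClosed.exists_root
    (Polynomial.X ^ 2 + Polynomial.C (W.a₁ * x + W.a₃) * Polynomial.X +
      Polynomial.C (-(x ^ 3 + W.a₂ * x ^ 2 + W.a₄ * x + W.a₆))) (by
    intro h
    have := Polynomial.natDegree_eq_zero_iff_degree_le_zero.mpr h.le
    have e : (Polynomial.X ^ 2 + Polynomial.C (W.a₁ * x + W.a₃) * Polynomial.X +
      Polynomial.C (-(x ^ 3 + W.a₂ * x ^ 2 + W.a₄ * x + W.a₆))).natDegree = 2 := by
      compute_degree!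
    omega)
  have heq : W.Equation x y := by
    rw [Affine.equation_iff]
    simp only [Polynomial.IsRoot.def, Polynomial.eval_add, Polynomial.eval_pow, Polynomial.eval_X,
      Polynomial.eval_mul, Polynomial.eval_C] at hy
    linear_combination hy
  have hΔ : W.Δ ≠ 0 := by
    show (curveBar P).Δ ≠ 0
    rw [curveBar_eq, WeierstrassCurve.map_Δ, eq_intCast]
    exact_mod_cast MultRed.freyCurveInt_Δ_ne_zero P
  have h := (W.equation_iff_nonsingular_of_Δ_ne_zero hΔ).mp heq
  refine nontrivial_of_ne (⟨_, mem_freyTors ((isRoot_iff h).mp hx)⟩ : freyTors P) 0 fun e => ?_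
  exact Point.some_ne_zero h (congrArg Subtype.val e)

/-- A point fixed by every automorphism is zero. -/
lemma eq_zero_of_fixed {R : (P.freyCurve⁄Ω).Point} (hR : R ∈ freyTors P)
    (hfix : ∀ σ : G_ℚ, σ • R = R) : R = 0 := by
  by_contra h0
  rcases R with _ | ⟨x, y, h⟩
  · exact h0 rfl
  have : IsAlgClosure ℚ Ω := ⟨inferInstance, inferInstance⟩
  have : Normal ℚ Ω := IsAlgClosure.normal ℚ Ω
  have : Algebra.IsSeparable ℚ Ω := Algebra.IsAlgebraic.isSeparable_of_perfectField
  have : IsGalois ℚ Ω := IsGalois.mk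
  have hxy : ∀ σ : G_ℚ, σ x = x ∧ σ y = y := fun σ => by
    obtain ⟨h', e⟩ := smul_some P σ h
    exact Point.some.inj (e.symm.trans (hfix σ))
  obtain ⟨x₀, rfl⟩ := (InfiniteGalois.mem_range_algebraMap_iff_fixed x).mpr fun σ => (hxy σ).1
  obtain ⟨y₀, rfl⟩ := (InfiniteGalois.mem_range_algebraMap_iff_fixed y).mpr fun σ => (hxy σ).2
  have hns : P.freyCurve.toAffine.Nonsingular x₀ y₀ :=
    (Affine.map_nonsingular (W := P.freyCurve.toAffine) (algebraMap ℚ Ω).injective x₀ y₀).mp h
  refine not_nsmul_eq_zero P hns ?_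
  rw [← EllTorsion.preΨ'_eval_eq_zero_iff hns P.hp_odd]
  have := EllTorsion.preΨ'_eval_eq_zero h P.hp_odd (nsmul_eq_zero_of_mem hR)
  change ((P.freyCurve.map (algebraMap ℚ Ω)).preΨ' P.p).eval (algebraMap ℚ Ω x₀) = 0 at this
  rw [WeierstrassCurve.map_preΨ', Polynomial.eval_map_apply] at this
  exact (map_eq_zero _).mp this

end Fermat.Agent.FreyReducible
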