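import Mathlib
import Fermat.Prelude.Def_FLTPrelim_CofixedLine
import Fermat.Agent.Frobenius.Exists
import Fermat.Agent.FreyReducible.InertiaLift
import Fermat.Agent.FreyReducible.Torsion

/-!
# A reducible mod-`p` representation of the Frey curve has a cofixed line

Let `N` be a stable line, `H₁` the automorphisms fixing `N` pointwise and `H₂` those acting trivially
on the quotient. Every inertia group away from `p` lies in both; at a place over `p` in one of
them. By Minkowski one of them is everything, and `H₁ = ⊤` would give a rational point of order `p`.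
-/

open WeierstrassCurve WeierstrassCurve.Affine WeierstrassCurve.Affine.Point
open scoped WeierstrassCurve.Affine

noncomputable section

namespace Fermat.Agent.FreyReducible

local notation "Ω" => AlgebraicClosure ℚ
local notation "G_ℚ" => (AlgebraicClosure ℚ) ≃ₐ[ℚ] (AlgebraicClosure ℚ)

local instance isAlgebraicQbar_main : Algebra.IsAlgebraic ℚ (AlgebraicClosure ℚ) :=
  AlgebraicClosure.isAlgebraic ℚ

variable {P : FreyPackage}

lemma smul_zmod_smul (σ : G_ℚ) (c : ZMod P.p) (x : freyTors P) : σ • (c • x) = c • (σ • x) :=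
  ZMod.map_smul (DistribSMul.toAddMonoidHom (freyTors P) σ) c x

/-- Points fixing `N` pointwise. -/
def fixLine (N : Submodule (ZMod P.p) (freyTors P)) : Subgroup G_ℚ where
  carrier := {σ | ∀ x ∈ N, σ • x = x}
  one_mem' x _ := one_smul _ x
  mul_mem' {σ τ} hσ hτ x hx := by rw [mul_smul, hτ x hx, hσ x hx]
  inv_mem' {σ} hσ x hx := inv_smul_eq_iff.mpr (hσ x hx).symm

/-- Automorphisms acting trivially modulo a stable `N`. -/
def fixQuot (N : Submodule (ZMod P.p) (freyTors P)) (hN : IsGaloisStable ℚ N) :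
    Subgroup G_ℚ where
  carrier := {σ | ∀ x, σ • x - x ∈ N}
  one_mem' x := by rw [one_smul, sub_self]; exact zero_mem _
  mul_mem' {σ τ} hσ hτ x := by
    have := add_mem (hN σ _ (hτ x)) (hσ x)
    rwa [smul_sub, ← mul_smul, sub_add_sub_cancel] at this
  inv_mem' {σ} hσ x := by
    have := neg_mem (hN σ⁻¹ _ (hσ x))
    rwa [smul_sub, inv_smul_smul, neg_sub] at this

lemma fixLine_normal (N : Submodule (ZMod P.p) (freyTors P)) (hN : IsGaloisStable ℚ N) :
    (fixLine N).Normal := ⟨fun σ hσ g x hx => by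
  rw [mul_smul, mul_smul, hσ _ (hN g⁻¹ x hx), smul_inv_smul]⟩

lemma fixQuot_normal (N : Submodule (ZMod P.p) (freyTors P)) (hN : IsGaloisStable ℚ N) :
    (fixQuot N hN).Normal := ⟨fun σ hσ g x => by
  have := hN g _ (hσ (g⁻¹ • x))
  rwa [smul_sub, smul_inv_smul, ← mul_smul, ← mul_smul] at this⟩

/-- Some finite extension fixes the whole torsion. -/
lemma exists_fixing (P : FreyPackage) :
    ∃ F : IntermediateField ℚ Ω, FiniteDimensional ℚ F ∧
      ∀ σ ∈ F.fixingSubgroup, ∀ x : freyTors P, σ • x = x := by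
  classical
  let coords : freyTors P → Set Ω := fun R =>
    match (R : (P.freyCurve⁄Ω).Point) with
    | .zero => ∅
    | .some x y _ => {x, y}
  have hfin : (⋃ R, coords R).Finite := Set.finite_iUnion fun R => by
    rcases R with ⟨_ | ⟨x, y, h⟩, hR⟩ <;> simp [coords]
  have : Finite (⋃ R, coords R) := hfin.to_subtype
  refine ⟨IntermediateField.adjoin ℚ (⋃ R, coords R),
    IntermediateField.finiteDimensional_adjoin fun x _ => Algebra.IsIntegral.isIntegral x, ?_⟩
  intro σ hσ R
  rw [IntermediateField.mem_fixingSubgroup_iff] at hσ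
  apply Subtype.ext
  show σ • (R : (P.freyCurve⁄Ω).Point) = R
  obtain ⟨_ | ⟨x, y, h⟩, hR⟩ := R
  · rfl
  · obtain ⟨h', e⟩ := smul_some P σ h
    have hmem : ∀ z ∈ ({x, y} : Set Ω), σ z = z := fun z hz =>
      hσ z (IntermediateField.subset_adjoin ℚ _ (Set.mem_iUnion.mpr ⟨⟨_, hR⟩, hz⟩))
    have ex := hmem x (Set.mem_insert x {y})
    have ey := hmem y (Set.mem_insert_of_mem x rfl)
    refine e.trans ?_
    simp only [ex, ey]

/-- A line in a plane. -/
structure IsLine (N : Submodule (ZMod P.p) (freyTors P)) : Prop where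
  stable : IsGaloisStable ℚ N
  ne_bot : N ≠ ⊥
  atom : ∀ D : Submodule (ZMod P.p) (freyTors P), D ⊓ N = ⊥ ∨ N ≤ D
  coatom : ∀ D : Submodule (ZMod P.p) (freyTors P), N ≤ D → D = N ∨ D = ⊤

lemma isLine_of_stable {N : Submodule (ZMod P.p) (freyTors P)} (hN : IsGaloisStable ℚ N)
    (h0 : N ≠ ⊥) (h1 : N ≠ ⊤) : IsLine N := by
  have : Fact P.p.Prime := ⟨P.pp⟩
  have : Module.Finite (ZMod P.p) (freyTors P) := Module.Finite.of_finite
  have hT : Module.finrank (ZMod P.p) (freyTors P) ≤ 2 := by
    have h := (finite_and_card_le P).2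
    rw [Module.natCard_eq_pow_finrank (K := ZMod P.p), Nat.card_zmod] at h
    exact (Nat.pow_le_pow_iff_right P.pp.one_lt).mp h
  have hN1 : 1 ≤ Module.finrank (ZMod P.p) N := Submodule.one_le_finrank_iff.mpr h0
  have hN2 := Submodule.finrank_lt h1
  refine ⟨hN, h0, fun D => ?_, fun D hD => ?_⟩
  · rcases eq_or_ne (D ⊓ N) ⊥ with h | h
    · exact Or.inl h
    refine Or.inr (inf_eq_right.mp ?_)
    exact Submodule.eq_of_le_of_finrank_le inf_le_right
      (by have := Submodule.one_le_finrank_iff.mpr h; omega)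
  · rcases eq_or_ne D ⊤ with h | h
    · exact Or.inr h
    refine Or.inl (Submodule.eq_of_le_of_finrank_le hD ?_).symm
    have := Submodule.finrank_lt h
    omega

variable {N : Submodule (ZMod P.p) (freyTors P)}

/-- A square-zero displacement is trivial on a line and on the quotient by it. -/
lemma mem_fix_of_sq_zero (hL : IsLine N) (σ : G_ℚ)
    (hsq : ∀ x : freyTors P, σ • (σ • x - x) = σ • x - x) :
    σ ∈ fixLine N ∧ σ ∈ fixQuot N hL.stable := by
  constructor
  · intro x hx
    by_contra hne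
    have hy0 : σ • x - x ≠ 0 := sub_ne_zero.mpr hne
    have hyN : σ • x - x ∈ N := sub_mem (hL.stable σ x hx) hx
    rcases hL.atom (Submodule.span (ZMod P.p) {σ • x - x}) with h | h
    · exact hy0 ((Submodule.eq_bot_iff _).mp h _ ⟨Submodule.mem_span_singleton_self _, hyN⟩)
    · obtain ⟨c, hc⟩ := Submodule.mem_span_singleton.mp (h hx)
      apply hne
      conv_lhs => rw [← hc, smul_zmod_smul, hsq, hc]
  · intro x
    by_contra hyN
    rcases hL.coatom (N ⊔ Submodule.span (ZMod P.p) {σ • x - x}) le_sup_left with h | h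
    · exact hyN (h ▸ Submodule.mem_sup_right (Submodule.mem_span_singleton_self _))
    · obtain ⟨n, hn, z, hz, hnz⟩ := Submodule.mem_sup.mp (h ▸ Submodule.mem_top (x := x))
      obtain ⟨c, rfl⟩ := Submodule.mem_span_singleton.mp hz
      apply hyN
      have key : σ • (n + c • (σ • x - x)) - (n + c • (σ • x - x)) = σ • n - n := by
        rw [smul_add, smul_zmod_smul, hsq, add_sub_add_right_eq_sub]
      rw [hnz] at key
      rw [key]
      exact sub_mem (hL.stable σ n hn) hn

/-- The torsion points in a subgroup, as a `ZMod p`-submodule. -/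
def torsIn (P : FreyPackage) (S : AddSubgroup (P.freyCurve⁄Ω).Point) :
    Submodule (ZMod P.p) (freyTors P) :=
  AddSubgroup.toZModSubmodule P.p (S.comap (freyTors P).subtype.toAddMonoidHom)

lemma inertia_away (hL : IsLine N) {q : ℕ} (hq : q.Prime) (hqp : q ≠ P.p) {A : ValuationSubring Ω}
    (hA : A.LiesOverPrime q) :
    A.inertiaSubgroupIn ℚ ≤ fixLine N ⊓ fixQuot N hL.stable := by
  intro σ hσ
  obtain ⟨S, -, hS⟩ := exists_subgroup_inertia P hq hA
  -- no torsion among the points with non-integral coordinates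
  have hlarge : ∀ R : (P.freyCurve⁄Ω).Point, R ∈ freyTors P → R ∈ largePts P A → R = 0 := by
    intro R hR hbig
    by_contra h0
    rcases R with _ | ⟨x, y, h⟩
    · exact h0 rfl
    have hroot := isRoot_xCoord hR h0
    have hlc : A.valuation ((freyPsi P).leadingCoeff : Ω) = 1 := by
      rw [freyPsi_leadingCoeff, Int.cast_natCast]
      exact valuation_natCast_eq_one hq hA fun h => hqp ((Nat.prime_dvd_prime_iff_eq hq P.pp).mp h)
    exact (valuation_root_le_one A hlc hroot).not_gt hbig
  exact mem_fix_of_sq_zero hL σ fun x => Subtype.ext <| sub_eq_zero.mp <|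
    hlarge _ (sub_mem (smul_mem_torsionBy σ (σ • x - x).2) (σ • x - x).2)
      ((hS σ hσ _).2 ((hS σ hσ (x : (P.freyCurve⁄Ω).Point)).1))

lemma inertia_at_p (hL : IsLine N) {A : ValuationSubring Ω} (hA : A.LiesOverPrime P.p) :
    A.inertiaSubgroupIn ℚ ≤ fixLine N ∨ A.inertiaSubgroupIn ℚ ≤ fixQuot N hL.stable := by
  obtain ⟨S, hle, hS⟩ := exists_subgroup_inertia P P.pp hA
  set D := torsIn P (largePts P A) with hDdef
  rcases hL.atom D with hD | hD
  · -- the line meets the kernel of reduction trivially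
    left
    intro σ hσ x hx
    have hyN : σ • x - x ∈ N := sub_mem (hL.stable σ x hx) hx
    rw [← sub_eq_zero]
    by_cases hxS : x ∈ torsIn P S
    · exact (Submodule.eq_bot_iff _).mp hD _ ⟨(hS σ hσ _).2 hxS, hyN⟩
    · rcases hL.atom (torsIn P S) with h | h
      · exact (Submodule.eq_bot_iff _).mp h _ ⟨(hS σ hσ _).1, hyN⟩
      · exact absurd (h hx) hxS
  · -- the line consists of points with non-integral coordinates, so is all of those
    right
    have hDN : D ≤ N := by
      classical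
      intro R hR
      by_contra hRN
      have : Fintype N := Fintype.ofFinite N
      have hR0 : (R : (P.freyCurve⁄Ω).Point) ≠ 0 := fun h => hRN (by
        rw [show R = 0 from Subtype.ext h]; exact zero_mem _)
      have hbig : ∀ z : freyTors P, z ∈ D → z ≠ 0 → 1 < A.valuation (xCoord (z : (P.freyCurve⁄Ω).Point)) := by
        intro z hz hz0
        obtain ⟨_ | ⟨x, y, h⟩, hzT⟩ := z
        · exact absurd rfl hz0
        · exact hz
      let S₀ : Finset Ω := Finset.image
        (fun n : N => xCoord (n.1 : (P.freyCurve⁄Ω).Point))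
        (Finset.univ.filter fun n : N => n ≠ 0)
      have hS₀ : ∀ s, s ∈ S₀ ↔ ∃ n : freyTors P, n ∈ N ∧ n ≠ 0 ∧
          xCoord (n : (P.freyCurve⁄Ω).Point) = s := by
        intro s
        simp only [S₀, Finset.mem_image, Finset.mem_filter, Finset.mem_univ, true_and]
        exact ⟨fun ⟨n, h0, hn⟩ => ⟨n, n.2, fun h => h0 (Subtype.ext h), hn⟩,
          fun ⟨n, hN, h0, hn⟩ => ⟨⟨n, hN⟩, fun h => h0 (congrArg Subtype.val h), hn⟩⟩
      have hne : S₀.Nonempty := by
        obtain ⟨n, hn, hn0⟩ := N.exists_mem_ne_zero_of_ne_bot hL.ne_bot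
        exact ⟨_, (hS₀ _).mpr ⟨n, hn, hn0, rfl⟩⟩
      have hstab : ∀ σ : G_ℚ, ∀ s ∈ S₀, σ s ∈ S₀ := by
        intro σ s hs
        obtain ⟨n, hn, hn0, rfl⟩ := (hS₀ s).mp hs
        refine (hS₀ _).mpr ⟨σ • n, hL.stable σ n hn, fun h => hn0 (by simpa using congrArg (σ⁻¹ • ·) h), ?_⟩
        obtain ⟨_ | ⟨x, y, h⟩, hnT⟩ := n
        · exact absurd rfl hn0
        · obtain ⟨h', e⟩ := smul_some P σ h
          exact (congrArg xCoord e).trans rfl
      have : IsAlgClosure ℚ Ω := ⟨inferInstance, inferInstance⟩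
      have : Normal ℚ Ω := IsAlgClosure.normal ℚ Ω
      have : Algebra.IsSeparable ℚ Ω := Algebra.IsAlgebraic.isSeparable_of_perfectField
      have : IsGalois ℚ Ω := IsGalois.mk
      obtain ⟨r, hr⟩ := (InfiniteGalois.mem_range_algebraMap_iff_fixed (∏ s ∈ S₀, s)).mpr fun σ => by
        rw [map_prod]
        have himg : S₀.image σ = S₀ := Finset.eq_of_subset_of_card_le
          (fun t ht => by
            obtain ⟨s, hs, rfl⟩ := Finset.mem_image.mp ht
            exact hstab σ s hs)
          (by rw [Finset.card_image_of_injective _ σ.injective])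
        conv_rhs => rw [← himg, Finset.prod_image σ.injective.injOn]
      have hmem := large_roots_mem P.pp hA (freyPsi_leadingCoeff P) S₀ hne
        (fun s hs => by
          obtain ⟨n, hn, hn0, rfl⟩ := (hS₀ s).mp hs
          exact isRoot_xCoord n.2 fun h => hn0 (Subtype.ext h))
        (fun s hs => by
          obtain ⟨n, hn, hn0, rfl⟩ := (hS₀ s).mp hs
          exact hbig n (hD hn) hn0)
        ⟨r, by rw [← hr]; exact (eq_ratCast _ r).symm⟩
        (isRoot_xCoord R.2 hR0) (hbig R hR fun h => hRN (h ▸ zero_mem _))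
      obtain ⟨n, hn, hn0, hx⟩ := (hS₀ _).mp hmem
      apply hRN
      rcases eq_or_eq_neg_of_xCoord hR0 (fun h => hn0 (Subtype.ext h)) hx.symm with h | h
      · rw [show R = n from Subtype.ext h]; exact hn
      · rw [show R = -n from Subtype.ext h]; exact neg_mem hn
    intro σ hσ x
    by_cases hxS : x ∈ torsIn P S
    · exact hDN ((hS σ hσ _).2 hxS)
    · have hNS : N ≤ torsIn P S := hD.trans fun z hz => hle hz
      rcases hL.coatom _ hNS with h | h
      · rw [← h]; exact (hS σ hσ _).1
      · exact absurd (h ▸ Submodule.mem_top) hxS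

/-- The theorem of S13. -/
theorem hasCofixedLine (P : FreyPackage)
    (hred : ¬ GaloisRepIsIrreducible (K := Ω) ℚ P.freyCurve P.p) :
    HasGaloisStableCofixedLine (K := Ω) ℚ P.freyCurve P.p := by
  have hex : ∃ N : Submodule (ZMod P.p) (freyTors P), IsGaloisStable ℚ N ∧ N ≠ ⊥ ∧ N ≠ ⊤ := by
    by_contra h
    push Not at h
    exact hred ⟨nontrivial_freyTors P, fun N hN => or_iff_not_imp_left.mpr (h N hN)⟩
  obtain ⟨N, hN, h0, h1⟩ := hex
  have hL := isLine_of_stable hN h0 h1
  obtain ⟨F, hF, hFfix⟩ := exists_fixing P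
  have hopen₁ : F.fixingSubgroup ≤ fixLine N := fun σ hσ x _ => hFfix σ hσ x
  have hopen₂ : F.fixingSubgroup ≤ fixQuot N hN := fun σ hσ x => by
    rw [hFfix σ hσ x, sub_self]; exact zero_mem _
  have := fixLine_normal N hN
  have := fixQuot_normal N hN
  obtain ⟨A, hA⟩ := Frobenius.exists_liesOverPrime Ω P.pp
  have hram : ∀ H : Subgroup G_ℚ, fixLine N ⊓ fixQuot N hN ≤ H → A.inertiaSubgroupIn ℚ ≤ H →
      ∀ q : ℕ, q.Prime → ∃ B : ValuationSubring Ω,
        B.LiesOverPrime q ∧ B.inertiaSubgroupIn ℚ ≤ H := by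
    intro H hH hAH q hq
    by_cases hqp : q = P.p
    · exact ⟨A, hqp ▸ hA, hAH⟩
    · obtain ⟨B, hB⟩ := Frobenius.exists_liesOverPrime Ω hq
      exact ⟨B, hB, (inertia_away hL hq hqp hB).trans hH⟩
  rcases inertia_at_p hL hA with h | h
  · have htop := subgroup_eq_top_of_inertia_le (fixLine N) ⟨F, hF, hopen₁⟩
      (hram _ inf_le_left h)
    obtain ⟨n, hn, hn0⟩ := N.exists_mem_ne_zero_of_ne_bot h0
    refine absurd (Subtype.ext (eq_zero_of_fixed P n.2 fun σ => ?_)) hn0
    exact congrArg Subtype.val ((htop ▸ Subgroup.mem_top σ : σ ∈ fixLine N) n hn)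
  · have htop := subgroup_eq_top_of_inertia_le (fixQuot N hN) ⟨F, hF, hopen₂⟩
      (hram _ inf_le_right h)
    exact ⟨N, hN, h0, h1, fun σ => (htop ▸ Subgroup.mem_top σ : σ ∈ fixQuot N hN)⟩

end Fermat.Agent.FreyReducible
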